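import Mathlib.NumberTheory.ArithmeticFunction.Misc
import Mathlib.Data.Nat.ChineseRemainder
import Mathlib.Data.Nat.Nth
import Mathlib.Data.Nat.Prime.Nth
import Mathlib.Data.Nat.Pairing
import Mathlib.Data.Finset.Option
import Mathlib.Tactic

/-!
# Numbers with gcds equal to their differences

For every `k` there are `k` numbers, any two with gcd equal to their difference, and multipliers
`x` with `x i f (s (a j / g)) = x j f (s (a i / g))`, `g` the gcd of `a i` and `a j`, for `f` the
number of divisors or of unitary divisors (after Heath-Brown). A translation by a common multiple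
`A` keeps the properties, and `A` can be added once every `x i f (s (A / a i))` is the same; this
is arranged by primes that divide one translated number each.
-/

set_option autoImplicit false

noncomputable section

namespace FA.ConsecutiveDivisors

open Finset

/-- A positive multiplicative function. -/
structure PosMultiplicative (f : ℕ → ℕ) : Prop where
  map_mul : ∀ {m n : ℕ}, m.Coprime n → f (m * n) = f m * f n
  pos : ∀ {n : ℕ}, n ≠ 0 → 0 < f n

/-- Any two differ by their gcd, and `x` compares the values of `f`. -/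
structure Compatible (f : ℕ → ℕ) (s : ℕ) {k : ℕ} (a x : Fin k → ℕ) : Prop where
  pos : ∀ i, 0 < a i
  wpos : ∀ i, 0 < x i
  step : ∀ i j, i ≠ j → a j = a i + (a i).gcd (a j) ∨ a i = a j + (a i).gcd (a j)
  ratio : ∀ i j, x i * f (s * (a j / (a i).gcd (a j))) = x j * f (s * (a i / (a i).gcd (a j)))

theorem card_divisors_pos {n : ℕ} (hn : n ≠ 0) : 0 < n.divisors.card :=
  card_pos.2 ⟨n, Nat.mem_divisors_self n hn⟩

theorem card_divisors_pow {p : ℕ} (hp : p.Prime) (e : ℕ) : (p ^ e).divisors.card = e + 1 := by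
  rw [Nat.divisors_prime_pow hp, card_map, card_range]

theorem add_eq_mul_succ {A m : ℕ} (h : m ∣ A) : A + m = m * (A / m + 1) := by
  rw [mul_add, mul_one, Nat.mul_div_cancel' h]

/-- **Translation.** -/
theorem Compatible.translate {f : ℕ → ℕ} {s k : ℕ} {a x : Fin k → ℕ} (h : Compatible f s a x)
    (hf : PosMultiplicative f) {A : ℕ} (hA : ∀ i, a i ∣ A)
    (hco : ∀ i, (s * a i).Coprime (A / a i + 1)) :
    Compatible f s (fun i => A + a i) fun i => x i * f (A / a i + 1) := by
  have hg : ∀ i j, i ≠ j → (A + a i).gcd (A + a j) = (a i).gcd (a j) := fun i j hij => by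
    have hd : ∀ b c : ℕ, c = b + b.gcd c → b ∣ A → (A + b).gcd (A + c) = b.gcd c :=
      fun b c e hb => by
        conv_lhs => rw [e, ← add_assoc, Nat.gcd_self_add_right]
        exact Nat.gcd_eq_right (Nat.dvd_add ((Nat.gcd_dvd_left b c).trans hb)
          (Nat.gcd_dvd_left b c))
    rcases h.step i j hij with e | e
    · exact hd _ _ e (hA i)
    · rw [Nat.gcd_comm, Nat.gcd_comm (a i)]
      exact hd _ _ (by rwa [Nat.gcd_comm] at e) (hA j)
  refine ⟨fun i => Nat.add_pos_right _ (h.pos i),
    fun i => Nat.mul_pos (h.wpos i) (hf.pos (Nat.succ_ne_zero _)),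
    fun i j hij => ?_, fun i j => ?_⟩
  · rw [hg i j hij]
    rcases h.step i j hij with e | e <;> omega
  · rcases eq_or_ne i j with rfl | hij
    · rfl
    rw [hg i j hij]
    have key : ∀ i j : Fin k, f (s * ((A + a i) / (a i).gcd (a j))) =
        f (s * (a i / (a i).gcd (a j))) * f (A / a i + 1) := fun i j => by
      rw [add_eq_mul_succ (hA i), mul_comm (a i), Nat.mul_div_assoc _ (Nat.gcd_dvd_left _ _),
        mul_comm (A / a i + 1), ← mul_assoc, hf.map_mul ((hco i).coprime_dvd_left
          (Nat.mul_dvd_mul_left s (Nat.div_dvd_of_dvd (Nat.gcd_dvd_left _ _))))]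
    have k1 := key i j
    have k2 := key j i
    rw [Nat.gcd_comm (a j)] at k2
    rw [k1, k2, mul_mul_mul_comm, h.ratio i j, mul_mul_mul_comm]
    ring

/-- **One more number.** -/
theorem Compatible.extend {f : ℕ → ℕ} {s k : ℕ} {a x : Fin k → ℕ} (h : Compatible f s a x)
    (hf : PosMultiplicative f) (hs : 0 < s) {A K : ℕ} (hA0 : 0 < A) (hK0 : 0 < K)
    (hA : ∀ i, a i ∣ A) (hco : ∀ i, (s * a i).Coprime (A / a i + 1))
    (hK : ∀ i, x i * f (s * (A / a i)) = K) :
    Compatible f s (Fin.cons A fun i => A + a i : Fin (k + 1) → ℕ)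
      (Fin.cons K fun i => x i * f (A / a i + 1) * f s : Fin (k + 1) → ℕ) := by
  have ht := h.translate hf hA hco
  have hg : ∀ i, A.gcd (A + a i) = a i := fun i => by
    rw [Nat.gcd_self_add_right]
    exact Nat.gcd_eq_right (hA i)
  have hdiv : ∀ i, (A + a i) / a i = A / a i + 1 := fun i => Nat.add_div_right _ (h.pos i)
  have hsB : ∀ i, f (s * (A / a i + 1)) = f s * f (A / a i + 1) := fun i =>
    hf.map_mul ((hco i).coprime_dvd_left (dvd_mul_right s _))
  refine ⟨fun i => ?_, fun i => ?_, fun i j hij => ?_, fun i j => ?_⟩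
  · cases i using Fin.cases with
    | zero => simpa using hA0
    | succ i => simpa using Nat.add_pos_right A (h.pos i)
  · cases i using Fin.cases with
    | zero => simpa using hK0
    | succ i =>
      rw [Fin.cons_succ]
      exact Nat.mul_pos (Nat.mul_pos (h.wpos i) (hf.pos (Nat.succ_ne_zero (A / a i))))
        (hf.pos hs.ne')
  · cases i using Fin.cases with
    | zero => cases j using Fin.cases with
      | zero => exact absurd rfl hij
      | succ j => simp only [Fin.cons_zero, Fin.cons_succ, hg, true_or]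
    | succ i => cases j using Fin.cases with
      | zero => simp only [Fin.cons_zero, Fin.cons_succ, Nat.gcd_comm (A + a i), hg, or_true]
      | succ j => simpa using ht.step i j fun e => hij (congrArg Fin.succ e)
  · cases i using Fin.cases with
    | zero => cases j using Fin.cases with
      | zero => rfl
      | succ j =>
        simp only [Fin.cons_zero, Fin.cons_succ, hg, hdiv, hsB, ← hK j]
        ring
    | succ i => cases j using Fin.cases with
      | zero =>
        simp only [Fin.cons_zero, Fin.cons_succ, Nat.gcd_comm (A + a i), hg, hdiv, hsB, ← hK i]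
        ring
      | succ j =>
        simp only [Fin.cons_succ, mul_right_comm _ (f s)]
        rw [ht.ratio i j]

theorem mul_prod_Ico (n : ℕ) : ∀ m, n ≤ m →
    m * ∏ t ∈ Ico n m, t = n * ∏ t ∈ Ico n m, (t + 1) := fun m hm => by
  induction m, hm using Nat.le_induction with
  | base => simp
  | succ m hm ih =>
    rw [prod_Ico_succ_top hm, prod_Ico_succ_top hm, show (m + 1) * ((∏ t ∈ Ico n m, t) * m) =
      (m * ∏ t ∈ Ico n m, t) * (m + 1) by ring, ih]
    ring

theorem card_divisors_prod_pow {ι : Type*} (s : Finset ι) {q : ι → ℕ} (hq : ∀ i ∈ s, (q i).Prime)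
    (hinj : Set.InjOn q s) (e : ι → ℕ) :
    (∏ i ∈ s, q i ^ e i).divisors.card = ∏ i ∈ s, (e i + 1) := by
  classical
  induction s using Finset.induction_on with
  | empty => simp
  | insert i s his ih =>
    rw [prod_insert his, prod_insert his, Nat.Coprime.card_divisors_mul, card_divisors_pow
      (hq i (mem_insert_self i s)), ih (fun l hl => hq l (mem_insert_of_mem hl))
      (hinj.mono (by simp))]
    refine Nat.Coprime.prod_right fun l hl => Nat.Coprime.pow _ _
      ((Nat.coprime_primes (hq i (mem_insert_self i s)) (hq l (mem_insert_of_mem hl))).2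
        fun h => ?_)
    exact his (hinj (mem_insert_self i s) (mem_insert_of_mem hl) h ▸ hl)

/-- The primes `q t` make the ratio `2 ^ S / C`. -/
theorem gadget {q : ℕ → ℕ} {n C B : ℕ} (hn : 0 < n) (hC : 1 ≤ C)
    (hq : ∀ t ∈ Ico n (n * C), (q t).Prime) (hinj : Set.InjOn q (Ico n (n * C) : Finset ℕ))
    (hB : ∀ t ∈ Ico n (n * C), q t ∣ B ∧ ¬ q t ^ 2 ∣ B) :
    B.divisors.card * (∏ t ∈ Ico n (n * C), q t ^ (t - 1)).divisors.card * C =
      2 ^ (n * C - n) * (B * ∏ t ∈ Ico n (n * C), q t ^ (t - 1)).divisors.card := by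
  obtain ⟨R, rfl⟩ : ∏ t ∈ Ico n (n * C), q t ∣ B := by
    rw [← prod_image (f := fun p => p) hinj]
    refine prod_primes_dvd B (fun p hp => ?_) fun p hp => ?_ <;>
      obtain ⟨t, ht, rfl⟩ := mem_image.1 hp
    · exact (hq t ht).prime
    · exact (hB t ht).1
  have hR : ∀ e : ℕ → ℕ, (∏ t ∈ Ico n (n * C), q t ^ e t).Coprime R := fun e =>
    Nat.Coprime.prod_left fun t ht => Nat.Coprime.pow_left _ ((hq t ht).coprime_iff_not_dvd.2
      fun hd => (hB t ht).2 (by
        rw [sq]
        exact Nat.mul_dvd_mul (dvd_prod_of_mem q ht) hd))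
  have e : (∏ t ∈ Ico n (n * C), q t) * R * ∏ t ∈ Ico n (n * C), q t ^ (t - 1) =
      (∏ t ∈ Ico n (n * C), q t ^ t) * R := by
    rw [mul_right_comm, ← prod_mul_distrib]
    refine congrArg (· * R) (prod_congr rfl fun t ht => ?_)
    rw [← pow_succ', Nat.sub_add_cancel (le_trans hn (mem_Ico.1 ht).1)]
  have h1 : (∏ t ∈ Ico n (n * C), q t) = ∏ t ∈ Ico n (n * C), q t ^ (fun _ => 1) t := by simp
  rw [e, Nat.Coprime.card_divisors_mul (hR _), card_divisors_prod_pow _ hq hinj,
    card_divisors_prod_pow _ hq hinj, h1, Nat.Coprime.card_divisors_mul (hR _),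
    card_divisors_prod_pow _ hq hinj, prod_const, Nat.card_Ico]
  have h2 := mul_prod_Ico n (n * C) (Nat.le_mul_of_pos_right n hC)
  rw [mul_assoc] at h2
  have h3 := Nat.eq_of_mul_eq_mul_left hn h2
  rw [show (∏ t ∈ Ico n (n * C), (t - 1 + 1)) = ∏ t ∈ Ico n (n * C), t from prod_congr rfl
    fun t ht => Nat.sub_add_cancel (le_trans hn (mem_Ico.1 ht).1)]
  rw [show (1 + 1) = 2 from rfl, show 2 ^ (n * C - n) * R.divisors.card *
    (∏ t ∈ Ico n (n * C), t) * C = 2 ^ (n * C - n) * R.divisors.card *
    (C * ∏ t ∈ Ico n (n * C), t) by ring, h3]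
  ring

end FA.ConsecutiveDivisors

end
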