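import Fermat.Agent.BoundedGaps.Local
import Fermat.Agent.CombinatorialSieve.Integers

/-!
# A system of linear forms

The residues to squarefree moduli at which a product of `k` linear forms vanishes, the count of
their `j < N`, and the sieve of the values of the product.
-/

set_option autoImplicit false

noncomputable section

namespace FA.ConsecutiveDivisors

open Finset
open FA.CombinatorialSieve (sievingPrimes sievingProd primeFactors_sievingProd mem_sievingPrimes
  squarefree_sievingProd)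
open scoped Nat

/-- Forms `α i j + β i` whose roots to each prime beyond `D` are `k` distinct residues and which
avoid the primes up to `D`. -/
structure FormSystem (k D : ℕ) where
  /-- The slopes. -/
  α : Fin k → ℕ
  /-- The constant terms. -/
  β : Fin k → ℕ
  kpos : 0 < k
  le : k ≤ D
  apos : ∀ i, 0 < α i
  bpos : ∀ i, 0 < β i
  small : ∀ i, ∀ p : ℕ, p.Prime → p ≤ D → p ∣ α i ∧ ¬ p ∣ β i
  large : ∀ i, ∀ p : ℕ, p.Prime → D < p → ¬ p ∣ α i
  cross : ∀ i l, i ≠ l → ∀ p : ℕ, p.Prime → D < p → ¬ α i * β l ≡ α l * β i [MOD p]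

variable {k D : ℕ} (F : FormSystem k D)

namespace FormSystem

/-- The value of a form. -/
def val (i : Fin k) (j : ℕ) : ℕ := F.α i * j + F.β i

/-- The product of the values. -/
def prodVal (j : ℕ) : ℕ := ∏ i, F.val i j

/-- An upper bound for the coefficients. -/
def size : ℕ := ∑ i, (F.α i + F.β i)

theorem val_pos (i : Fin k) (j : ℕ) : 0 < F.val i j := Nat.add_pos_right _ (F.bpos i)

theorem prodVal_pos (j : ℕ) : 0 < F.prodVal j := prod_pos fun i _ => F.val_pos i j

theorem val_le {i : Fin k} {j N : ℕ} (hj : j < N) : F.val i j ≤ F.size * N := by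
  have h1 : F.α i + F.β i ≤ F.size :=
    single_le_sum (f := fun i => F.α i + F.β i) (fun _ _ => Nat.zero_le _) (mem_univ i)
  refine le_trans ?_ (Nat.mul_le_mul_right N h1)
  rw [add_mul, val]
  exact add_le_add (Nat.mul_le_mul_left _ hj.le) (Nat.le_mul_of_pos_right _ (by omega))

theorem prodVal_strictMono : StrictMono F.prodVal := fun a b hab => by
  refine prod_lt_prod (fun i _ => F.val_pos i a) (fun i _ => ?_) ⟨⟨0, F.kpos⟩, mem_univ _, ?_⟩
  · exact Nat.add_le_add_right (Nat.mul_le_mul_left _ hab.le) _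
  · exact Nat.add_lt_add_right (Nat.mul_lt_mul_of_pos_left hab (F.apos _)) _

theorem val_mod (i : Fin k) (m j : ℕ) : F.val i (j % m) ≡ F.val i j [MOD m] :=
  ((Nat.mod_modEq j m).mul_left _).add_right _

theorem dvd_val_mod (i : Fin k) (m j : ℕ) : m ∣ F.val i (j % m) ↔ m ∣ F.val i j :=
  (F.val_mod i m j).dvd_iff dvd_rfl

theorem dvd_prodVal_mod (m j : ℕ) : m ∣ F.prodVal (j % m) ↔ m ∣ F.prodVal j := by
  have h : F.prodVal (j % m) ≡ F.prodVal j [MOD m] := by
    rw [Nat.ModEq, prodVal, prodVal, prod_nat_mod, prod_nat_mod univ m fun i => F.val i j]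
    exact congrArg (· % m) (prod_congr rfl fun i _ => F.val_mod i m j)
  exact h.dvd_iff dvd_rfl

theorem not_dvd_val_of_le {i : Fin k} {p : ℕ} (hp : p.Prime) (hpD : p ≤ D) (j : ℕ) :
    ¬ p ∣ F.val i j := fun h =>
  (F.small i p hp hpD).2 ((Nat.dvd_add_right ((F.small i p hp hpD).1.mul_right j)).1 h)

/-- At most one residue, as the slope is prime to the modulus. -/
theorem card_roots_le_one {i : Fin k} {m : ℕ} (hm : m.Coprime (F.α i)) :
    ((range m).filter fun c => m ∣ F.val i c).card ≤ 1 := by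
  refine card_le_one.2 fun c hc c' hc' => ?_
  rw [mem_filter, mem_range] at hc hc'
  have h : F.val i c ≡ F.val i c' [MOD m] :=
    (Nat.modEq_zero_iff_dvd.2 hc.2).trans (Nat.modEq_zero_iff_dvd.2 hc'.2).symm
  exact (Nat.ModEq.cancel_left_of_coprime hm
    (Nat.ModEq.add_right_cancel' (F.β i) h)).eq_of_lt_of_lt hc.1 hc'.1

theorem card_roots_prime {i : Fin k} {p : ℕ} (hp : p.Prime) (hDp : D < p) :
    ((range p).filter fun c => p ∣ F.val i c).card = 1 := by
  refine le_antisymm (F.card_roots_le_one (hp.coprime_iff_not_dvd.2 (F.large i p hp hDp))) ?_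
  have : Fact p.Prime := ⟨hp⟩
  have ha : ((F.α i : ℕ) : ZMod p) ≠ 0 := by
    rw [Ne, ZMod.natCast_eq_zero_iff]
    exact F.large i p hp hDp
  refine card_pos.2 ⟨(-((F.α i : ℕ) : ZMod p)⁻¹ * (F.β i : ℕ)).val, mem_filter.2
    ⟨mem_range.2 (ZMod.val_lt _), ?_⟩⟩
  rw [val, ← ZMod.natCast_eq_zero_iff, Nat.cast_add, Nat.cast_mul, ZMod.natCast_rightInverse _]
  field_simp
  ring

theorem not_dvd_two {i l : Fin k} (hil : i ≠ l) {p : ℕ} (hp : p.Prime) (hDp : D < p) (c : ℕ)
    (hi : p ∣ F.val i c) : ¬ p ∣ F.val l c := fun hl => by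
  refine F.cross i l hil p hp hDp ?_
  have h1 : F.α i * F.val l c ≡ F.α l * F.val i c [MOD p] :=
    (Nat.modEq_zero_iff_dvd.2 (hl.mul_left _)).trans
      (Nat.modEq_zero_iff_dvd.2 (hi.mul_left _)).symm
  rw [val, val, mul_add, mul_add, mul_left_comm (F.α l) (F.α i) c] at h1
  exact Nat.ModEq.add_left_cancel' _ h1

open scoped Classical in
theorem card_prodVal_roots_prime {p : ℕ} (hp : p.Prime) (hDp : D < p) :
    ((range p).filter fun c => p ∣ F.prodVal c).card = k := by
  have e : ((range p).filter fun c => p ∣ F.prodVal c) =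
      univ.biUnion fun i => (range p).filter fun c => p ∣ F.val i c := by
    ext c
    simp only [mem_filter, mem_biUnion, mem_univ, true_and, prodVal, hp.prime.dvd_finsetProd_iff]
    exact ⟨fun ⟨h, i, hi⟩ => ⟨i, h, hi⟩, fun ⟨i, h, hi⟩ => ⟨h, i, hi⟩⟩
  rw [e, card_biUnion fun i _ l _ hil => disjoint_left.2 fun c hc hc' =>
    F.not_dvd_two hil hp hDp c (mem_filter.1 hc).2 (mem_filter.1 hc').2,
    sum_congr rfl fun i _ => F.card_roots_prime hp hDp]
  simp

theorem card_prodVal_roots {d : ℕ} (hd : Squarefree d) (hD : ∀ p ∈ d.primeFactors, D < p) :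
    (((range d).filter fun c => d ∣ F.prodVal c).card : ℝ) = ∏ _p ∈ d.primeFactors, (k : ℝ) := by
  classical
  have hp : ∀ p ∈ d.primeFactors, p.Prime := fun p h => Nat.prime_of_mem_primeFactors h
  have e : ∀ c, (if d ∣ F.prodVal c then (1 : ℝ) else 0) =
      ∏ p ∈ d.primeFactors, (if p ∣ F.prodVal c then (1 : ℝ) else 0) := fun c => by
    rw [prod_boole]
    refine if_congr ⟨fun h p hp => (Nat.dvd_of_mem_primeFactors hp).trans h, fun h => ?_⟩ rfl rfl
    rw [← Nat.prod_primeFactors_of_squarefree hd]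
    exact prod_primes_dvd _ (fun p h' => (hp p h').prime) h
  rw [← sum_boole, sum_congr rfl fun c _ => e c]
  conv_lhs => arg 1; rw [← Nat.prod_primeFactors_of_squarefree hd]
  rw [BoundedGaps.sum_range_prod hp (fun p c => if p ∣ F.prodVal c then (1 : ℝ) else 0)
    fun p _ c => by simp only [F.dvd_prodVal_mod]]
  exact prod_congr rfl fun p h => by rw [sum_boole, F.card_prodVal_roots_prime (hp p h) (hD p h)]

/-- The roots to a product of a prime and a squarefree modulus. -/
theorem card_two_roots {i : Fin k} {p d : ℕ} (hp : p.Prime) (hDp : D < p) (hd : 0 < d)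
    (hpd : p.Coprime d) :
    (((range (p * d)).filter fun c => p ∣ F.val i c ∧ d ∣ F.prodVal c).card : ℝ) =
      (((range d).filter fun c => d ∣ F.prodVal c).card : ℝ) := by
  classical
  have e : ∀ c, (if p ∣ F.val i c ∧ d ∣ F.prodVal c then (1 : ℝ) else 0) =
      (fun x => if p ∣ F.val i x then (1 : ℝ) else 0) (c % p) *
        (fun y => if d ∣ F.prodVal y then (1 : ℝ) else 0) (c % d) := fun c => by
    simp only [F.dvd_val_mod, F.dvd_prodVal_mod, ite_mul, one_mul, zero_mul, ite_and]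
  rw [← sum_boole, sum_congr rfl fun c _ => e c,
    BoundedGaps.sum_range_mul_coprime hpd hp.ne_zero hd.ne'
      (fun x => if p ∣ F.val i x then 1 else 0)
      fun y => if d ∣ F.prodVal y then 1 else 0,
    sum_boole, sum_boole, F.card_roots_prime hp hDp, Nat.cast_one, one_mul]

end FormSystem

/-- **A periodic condition.** -/
theorem abs_count_periodic_le {P : ℕ → Prop} [DecidablePred P] {m : ℕ} (hm : 0 < m)
    (hP : ∀ c, P (c % m) ↔ P c) (N : ℕ) :
    |(((range N).filter P).card : ℝ) - (((range m).filter P).card : ℝ) / m * N| ≤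
      (((range m).filter P).card : ℝ) := by
  simp only [← Nat.count_eq_card_filter_range]
  have hshift : ∀ X, Nat.count P (m + X) = Nat.count P m + Nat.count P X := fun X => by
    rw [Nat.count_add]
    congr 1
    simp only [Nat.count_eq_card_filter_range]
    refine congrArg card (filter_congr fun c _ => ?_)
    rw [← hP (m + c), Nat.add_mod_left, hP c]
  have hq : ∀ q r, Nat.count P (q * m + r) = q * Nat.count P m + Nat.count P r := fun q r => by
    induction q with
    | zero => simp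
    | succ q ih => rw [show (q + 1) * m + r = m + (q * m + r) by ring, hshift, ih]; ring
  have hN : N = N / m * m + N % m := (Nat.div_add_mod' N m).symm
  obtain ⟨ρ, hρ⟩ : ∃ ρ : ℕ, ρ = Nat.count P m := ⟨_, rfl⟩
  have hr : Nat.count P (N % m) ≤ ρ := hρ ▸ Nat.count_monotone _ (Nat.mod_lt N hm).le
  have hm0 : (0 : ℝ) < m := Nat.cast_pos.2 hm
  have e1 : (Nat.count P N : ℝ) = ((N / m : ℕ) : ℝ) * ρ + Nat.count P (N % m) := by
    conv_lhs => rw [hN, hq]
    rw [hρ]
    push_cast
    ring
  have e2 : (ρ : ℝ) / m * N = ((N / m : ℕ) : ℝ) * ρ + (ρ : ℝ) / m * ((N % m : ℕ) : ℝ) := by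
    conv_lhs => rw [hN]
    push_cast
    field_simp
  have h1 : (ρ : ℝ) / m * ((N % m : ℕ) : ℝ) ≤ ρ := by
    rw [div_mul_eq_mul_div, div_le_iff₀ hm0]
    exact mul_le_mul_of_nonneg_left (Nat.cast_le.2 (Nat.mod_lt N hm).le) (Nat.cast_nonneg ρ)
  have h2 : (0 : ℝ) ≤ (ρ : ℝ) / m * ((N % m : ℕ) : ℝ) := by positivity
  have h3 : (Nat.count P (N % m) : ℝ) ≤ ρ := Nat.cast_le.2 hr
  rw [← hρ, e1, e2, abs_le]
  constructor <;> linarith [Nat.cast_nonneg (α := ℝ) (Nat.count P (N % m))]

theorem prime_mem_sievingPrimes {D p : ℕ} {Z : ℝ} (hp : p ∈ sievingPrimes Z D !) :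
    p.Prime ∧ D < p := by
  obtain ⟨hpp, -, hd⟩ := mem_sievingPrimes.1 hp
  exact ⟨hpp, not_le.1 fun h => hd (hpp.dvd_factorial.2 h)⟩

/-- The sieve of the values of the product over a finite set. -/
def FormSystem.sieve (S : Finset ℕ) (X Z : ℝ) : BoundingSieve where
  support := S.image F.prodVal
  prodPrimes := sievingProd Z D !
  prodPrimes_squarefree := squarefree_sievingProd Z D !
  weights _ := 1
  weights_nonneg _ := zero_le_one
  totalMass := X
  nu := ArithmeticFunction.prodPrimeFactors fun p => (k : ℝ) / p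
  nu_mult := ArithmeticFunction.IsMultiplicative.prodPrimeFactors _
  nu_pos_of_prime p hp _ := by
    rw [ArithmeticFunction.prodPrimeFactors_apply hp.ne_zero, hp.primeFactors, prod_singleton]
    exact div_pos (Nat.cast_pos.2 F.kpos) (Nat.cast_pos.2 hp.pos)
  nu_lt_one_of_prime p hp hd := by
    rw [ArithmeticFunction.prodPrimeFactors_apply hp.ne_zero, hp.primeFactors, prod_singleton,
      div_lt_one (Nat.cast_pos.2 hp.pos), Nat.cast_lt]
    exact F.le.trans_lt (prime_mem_sievingPrimes (primeFactors_sievingProd Z D ! ▸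
      Nat.mem_primeFactors.2 ⟨hp, hd, (squarefree_sievingProd Z D !).ne_zero⟩)).2

/-- `j` has all values free of primes below `Z`. -/
def FormSystem.IsRough (Z : ℝ) (j : ℕ) : Prop :=
  ∀ i, ∀ p : ℕ, p.Prime → (p : ℝ) < Z → ¬ p ∣ F.val i j

open scoped Classical in
theorem FormSystem.sieve_siftedSum (S : Finset ℕ) (X Z : ℝ) :
    (F.sieve S X Z).siftedSum = ((S.filter (F.IsRough Z)).card : ℝ) := by
  rw [BoundingSieve.siftedSum]
  show (∑ n ∈ S.image F.prodVal, if Nat.Coprime (sievingProd Z D !) n then (1 : ℝ) else 0) = _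
  rw [sum_image fun a _ b _ h => F.prodVal_strictMono.injective h, sum_boole]
  congr 2
  refine filter_congr fun j _ => ⟨fun h i p hp hpZ hd => ?_, fun h => ?_⟩
  · rcases le_or_gt p D with hpD | hpD
    · exact F.not_dvd_val_of_le hp hpD j hd
    · refine hp.not_dvd_one (h ▸ Nat.dvd_gcd ?_ (hd.trans (dvd_prod_of_mem _ (mem_univ i))))
      exact (CombinatorialSieve.prime_dvd_sievingProd_iff hp).2
        ⟨hpZ, fun hd' => absurd (hp.dvd_factorial.1 hd') (not_le.2 hpD)⟩
  · refine Nat.coprime_of_dvd fun p hp h1 h2 => ?_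
    obtain ⟨i, -, hi⟩ := (hp.prime.dvd_finsetProd_iff _).1 h2
    exact h i p hp ((CombinatorialSieve.prime_dvd_sievingProd_iff hp).1 h1).1 hi

theorem FormSystem.sieve_multSum (S : Finset ℕ) (X Z : ℝ) (d : ℕ) :
    (F.sieve S X Z).multSum d = ((S.filter fun j => d ∣ F.prodVal j).card : ℝ) := by
  rw [BoundingSieve.multSum]
  show (∑ n ∈ S.image F.prodVal, if d ∣ n then (1 : ℝ) else 0) = _
  rw [sum_image fun a _ b _ h => F.prodVal_strictMono.injective h, sum_boole]

theorem FormSystem.sieve_nu {Z : ℝ} {d : ℕ} (hd : d ∣ sievingProd Z D !) :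
    ArithmeticFunction.prodPrimeFactors (fun p => (k : ℝ) / p) d =
      (((range d).filter fun c => d ∣ F.prodVal c).card : ℝ) / d := by
  have hsq := Squarefree.squarefree_of_dvd hd (squarefree_sievingProd Z D !)
  rw [F.card_prodVal_roots hsq fun p hp => (prime_mem_sievingPrimes (primeFactors_sievingProd Z
    D ! ▸ Nat.primeFactors_mono hd (squarefree_sievingProd Z D !).ne_zero hp)).2,
    ArithmeticFunction.prodPrimeFactors_apply hsq.ne_zero, prod_div_distrib]
  conv_rhs => rw [← Nat.prod_primeFactors_of_squarefree hsq, Nat.cast_prod,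
    Nat.primeFactors_prod fun p hp => Nat.prime_of_mem_primeFactors hp]

theorem FormSystem.abs_sieve_rem_le {N : ℕ} {Z : ℝ} {d : ℕ} (hd : d ∣ sievingProd Z D !) :
    |(F.sieve (range N) N Z).rem d| ≤ d := by
  have hd0 : 0 < d := Nat.pos_of_dvd_of_pos hd (squarefree_sievingProd Z D !).ne_zero.bot_lt
  have hν : (F.sieve (range N) N Z).nu d = _ := F.sieve_nu hd
  rw [BoundingSieve.rem, F.sieve_multSum, hν]
  show |_ - _ * (N : ℝ)| ≤ _
  refine (abs_count_periodic_le hd0 (F.dvd_prodVal_mod d) N).trans ?_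
  exact_mod_cast (card_filter_le _ _).trans (card_range d).le

theorem FormSystem.abs_sieve_rem_dvd_le {N : ℕ} {Z : ℝ} {d p : ℕ} (hd : d ∣ sievingProd Z D !)
    (i : Fin k) (hp : p.Prime) (hDp : D < p) (hpZ : Z ≤ p) :
    |(F.sieve ((range N).filter fun j => p ∣ F.val i j) ((N : ℝ) / p) Z).rem d| ≤ d := by
  have hd0 : 0 < d := Nat.pos_of_dvd_of_pos hd (squarefree_sievingProd Z D !).ne_zero.bot_lt
  have hpd : p.Coprime d := hp.coprime_iff_not_dvd.2 fun h => absurd
    ((CombinatorialSieve.prime_dvd_sievingProd_iff hp).1 (h.trans hd)).1 (not_lt.2 hpZ)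
  have hν : (F.sieve ((range N).filter fun j => p ∣ F.val i j) ((N : ℝ) / p) Z).nu d = _ :=
    F.sieve_nu hd
  rw [BoundingSieve.rem, F.sieve_multSum, hν, filter_filter]
  show |_ - _ * ((N : ℝ) / p)| ≤ _
  have hper : ∀ c, (p ∣ F.val i (c % (p * d)) ∧ d ∣ F.prodVal (c % (p * d))) ↔
      (p ∣ F.val i c ∧ d ∣ F.prodVal c) := fun c => by
    rw [← F.dvd_val_mod i p (c % (p * d)), Nat.mod_mul_right_mod, F.dvd_val_mod i p,
      ← F.dvd_prodVal_mod d (c % (p * d)), Nat.mod_mul_left_mod, F.dvd_prodVal_mod d]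
  have h := abs_count_periodic_le (P := fun c => p ∣ F.val i c ∧ d ∣ F.prodVal c)
    (Nat.mul_pos hp.pos hd0) hper N
  rw [F.card_two_roots hp hDp hd0 hpd, Nat.cast_mul] at h
  have hp0 : (0 : ℝ) < p := Nat.cast_pos.2 hp.pos
  have hd0' : (0 : ℝ) < d := Nat.cast_pos.2 hd0
  rw [show (((range d).filter fun c => d ∣ F.prodVal c).card : ℝ) / d * ((N : ℝ) / p) =
    (((range d).filter fun c => d ∣ F.prodVal c).card : ℝ) / ((p : ℝ) * d) * N by field_simp]
  refine h.trans ?_
  exact_mod_cast (card_filter_le _ _).trans (card_range d).le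

end FA.ConsecutiveDivisors

end
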