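import Fermat.Agent.ConsecutiveDivisors.Construction
import Mathlib.NumberTheory.PrimeCounting

/-!
# Heath-Brown's lemma

The induction: translate so that the `i`th number has the primes of its gadget exactly once, then
take `A` with these primes to prescribed exponents and the others to the exponents they have.
-/

set_option autoImplicit false

noncomputable section

namespace FA.ConsecutiveDivisors

open Finset

theorem exists_translation {k : ℕ} {a : Fin k → ℕ} {P₀ : ℕ} (hP0 : 0 < P₀)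
    (hPa : ∀ i, a i ∣ P₀) (J : Fin k → Finset ℕ) :
    ∃ (A₁ : ℕ) (q : Fin k → ℕ → ℕ), 0 < A₁ ∧ P₀ * P₀ ∣ A₁ ∧
      ∀ i, Set.InjOn (q i) (J i : Finset ℕ) ∧
        ∀ t ∈ J i, (q i t).Prime ∧
          q i t ∣ A₁ / a i + 1 ∧ ¬ q i t ^ 2 ∣ A₁ / a i + 1 := by
  classical
  obtain ⟨q, hq⟩ : ∃ q : Fin k → ℕ → ℕ,
      q = fun (i : Fin k) (t : ℕ) => Nat.nth Nat.Prime (P₀ + Nat.pair i t) := ⟨_, rfl⟩
  have hqp : ∀ i t, (q i t).Prime := fun i t => hq ▸ Nat.prime_nth_prime _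
  have hqinj : ∀ i t j s, q i t = q j s → i = j ∧ t = s := fun i t j s e => by
    rw [hq] at e
    have e' := Nat.add_left_cancel (Nat.nth_injective Nat.infinite_setOfPred_prime e)
    obtain ⟨h1, h2⟩ := Nat.pair_eq_pair.1 e'
    exact ⟨Fin.ext h1, h2⟩
  have hqP : ∀ i t, ¬ q i t ∣ P₀ := fun i t hd => by
    have h1 : P₀ + Nat.pair i t + 2 ≤ q i t := hq ▸ Nat.add_two_le_nth_prime _
    have := Nat.le_of_dvd hP0 hd
    omega
  obtain ⟨σ, hσ⟩ : ∃ σ : Finset (Σ _ : Fin k, ℕ),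
      σ = univ.sigma J := ⟨_, rfl⟩
  obtain ⟨m, hm⟩ : ∃ m : Option (Σ _ : Fin k, ℕ) → ℕ,
      m = fun o => o.elim (P₀ * P₀) fun z => q z.1 z.2 ^ 2 := ⟨_, rfl⟩
  obtain ⟨b, hb⟩ := Nat.chineseRemainderOfFinset
    (fun o : Option (Σ _ : Fin k, ℕ) => o.elim 0 fun z => a z.1 * (q z.1 z.2 - 1)) m
    (insertNone σ) (fun o _ => by
      rw [hm]
      cases o with
      | none => exact (Nat.mul_pos hP0 hP0).ne'
      | some z => exact pow_ne_zero 2 (hqp _ _).ne_zero)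
    (fun o _ o' _ hne => by
      simp only [Function.onFun, hm]
      cases o with
      | none => cases o' with
        | none => exact absurd rfl hne
        | some z =>
          have hc := ((hqp z.1 z.2).coprime_iff_not_dvd.2 (hqP _ _)).symm
          exact (Nat.Coprime.mul_left hc hc).pow_right 2
      | some z => cases o' with
        | none =>
          have hc := (hqp z.1 z.2).coprime_iff_not_dvd.2 (hqP _ _)
          exact (Nat.Coprime.mul_right hc hc).pow_left 2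
        | some w =>
          refine Nat.Coprime.pow 2 2 ((Nat.coprime_primes (hqp _ _) (hqp _ _)).2 fun e => hne ?_)
          obtain ⟨i, t⟩ := z
          obtain ⟨j, s⟩ := w
          obtain ⟨rfl, rfl⟩ := hqinj _ _ _ _ e
          rfl)
  obtain ⟨M, hM⟩ : ∃ M, M = P₀ * P₀ * ∏ z ∈ σ, q z.1 z.2 ^ 2 := ⟨_, rfl⟩
  have hM0 : 0 < M := hM ▸ Nat.mul_pos (Nat.mul_pos hP0 hP0)
    (prod_pos fun z _ => pow_pos (hqp _ _).pos 2)
  have hPA : P₀ * P₀ ∣ b + M := Nat.dvd_add (Nat.modEq_zero_iff_dvd.1 (by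
    simpa [hm] using hb none (by simp))) (hM ▸ dvd_mul_right _ _)
  refine ⟨b + M, q, Nat.add_pos_right _ hM0, hPA,
    fun i => ⟨fun t _ s _ e => (hqinj i t i s e).2, fun t ht => ⟨hqp i t, ?_⟩⟩⟩
  have hz : (⟨i, t⟩ : Σ _ : Fin k, ℕ) ∈ σ := by simp [hσ, ht]
  have h1 : b + M ≡ a i * (q i t - 1) [MOD q i t ^ 2] := by
    have h2 : b ≡ a i * (q i t - 1) [MOD q i t ^ 2] := by
      simpa [hm] using hb (some ⟨i, t⟩) (by simp [hz])
    have h3 : M ≡ 0 [MOD q i t ^ 2] := Nat.modEq_zero_iff_dvd.2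
      (hM ▸ (dvd_prod_of_mem (fun z : Σ _ : Fin k, ℕ => q z.1 z.2 ^ 2) hz).mul_left _)
    simpa using h2.add h3
  have hai : a i ∣ b + M := (hPa i).trans ((dvd_mul_right P₀ P₀).trans hPA)
  rw [← Nat.mul_div_cancel' hai] at h1
  have h4 := Nat.ModEq.cancel_left_of_coprime (Nat.Coprime.pow_left 2
    ((hqp i t).coprime_iff_not_dvd.2 fun hd => hqP i t (hd.trans (hPa i)))) h1
  have h5 : (b + M) / a i + 1 ≡ q i t [MOD q i t ^ 2] := by
    have := h4.add_right 1
    rwa [Nat.sub_add_cancel (hqp i t).one_le] at this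
  refine ⟨?_, fun hd => ?_⟩
  · exact (((h5.of_dvd (dvd_pow_self _ two_ne_zero))).dvd_iff dvd_rfl).2 dvd_rfl
  · have := Nat.le_of_dvd (hqp i t).pos ((h5.dvd_iff dvd_rfl).1 hd)
    have := (hqp i t).two_le
    nlinarith

/-- **The step.** -/
theorem exists_compatible_succ {f : ℕ → ℕ} (hf : PosMultiplicative f) {s k : ℕ} (hs : 0 < s)
    (hk : 0 < k) {a x : Fin k → ℕ} (h : Compatible f s a x) {P₀ : ℕ} (hP0 : 0 < P₀) (h2P : 2 ∣ P₀)
    (hsP : s ∣ P₀) (hPa : ∀ i, a i ∣ P₀) (J : Fin k → Finset ℕ) (E : Fin k → ℕ → ℕ) {L Kc : ℕ}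
    (hL : 0 < L)
    (hgad : ∀ (i : Fin k) (q : ℕ → ℕ) (B : ℕ), (∀ t ∈ J i, (q t).Prime) →
      Set.InjOn q (J i : Finset ℕ) → (∀ t ∈ J i, q t ∣ B ∧ ¬ q t ^ 2 ∣ B) → 0 < B →
      L * (x i * f (s * (P₀ * (P₀ / a i)))) * (f B * f (∏ t ∈ J i, q t ^ E i t)) =
        Kc * f (B * ∏ t ∈ J i, q t ^ E i t)) :
    ∃ a' x' : Fin (k + 1) → ℕ, Compatible f s a' x' ∧
      ∀ S : Submonoid ℕ, (∀ n, n ≠ 0 → f n ∈ S) → (∀ i, x i ∈ S) → ∀ i, x' i ∈ S := by
  classical
  obtain ⟨A₁, q, hA₁0, hPA, hq⟩ := exists_translation hP0 hPa J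
  have haA : ∀ i, a i ∣ A₁ := fun i => (hPa i).trans ((dvd_mul_right P₀ P₀).trans hPA)
  obtain ⟨B, hB⟩ : ∃ B : Fin k → ℕ, B = fun i => A₁ / a i + 1 := ⟨_, rfl⟩
  obtain ⟨H, hH⟩ : ∃ H : Fin k → ℕ,
      H = fun i => ∏ t ∈ J i, q i t ^ E i t := ⟨_, rfl⟩
  obtain ⟨G, hG⟩ : ∃ G : Fin k → ℕ, G = fun i => B i * H i := ⟨_, rfl⟩
  have hBP : ∀ p i, p.Prime → p ∣ B i → ¬ p ∣ P₀ := fun p i hp hpB hpP => by
    have h1 : p ∣ A₁ / a i := by
      obtain ⟨c, rfl⟩ := hPA
      rw [show P₀ * P₀ * c = P₀ * c * P₀ by ring, Nat.mul_div_assoc _ (hPa i)]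
      exact (hpP.mul_right c).mul_right _
    rw [hB] at hpB
    exact hp.not_dvd_one ((Nat.dvd_add_right h1).1 hpB)
  have hco : ∀ i, (s * a i).Coprime (A₁ / a i + 1) := fun i => Nat.coprime_of_dvd fun p hp h1 h2 =>
    hBP p i hp (hB ▸ h2) ((hp.dvd_mul.1 h1).elim (·.trans hsP) (·.trans (hPa i)))
  have ht := h.translate hf haA hco
  have hsplit : ∀ i, A₁ + a i = a i * B i := fun i => hB ▸ add_eq_mul_succ (haA i)
  have huniq : ∀ p i j, p.Prime → p ∣ B i → p ∣ B j → i = j := fun p i j hp h1 h2 => by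
    by_contra hij
    have h3 : p ∣ A₁ + a i := hsplit i ▸ h1.mul_left _
    have h4 : p ∣ A₁ + a j := hsplit j ▸ h2.mul_left _
    refine hBP p i hp h1 (dvd_trans ?_ (hPa i))
    rcases h.step i j hij with e | e
    · rw [e, ← add_assoc] at h4
      exact ((Nat.dvd_add_right h3).1 h4).trans (Nat.gcd_dvd_left _ _)
    · rw [e, ← add_assoc] at h3
      exact ((Nat.dvd_add_right h4).1 h3).trans (Nat.gcd_dvd_left _ _)
  have hB0 : ∀ i, 0 < B i := fun i => hB ▸ Nat.succ_pos _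
  have hH0 : ∀ i, 0 < H i := fun i => hH ▸ prod_pos fun t ht => pow_pos ((hq i).2 t ht).1.pos _
  have hG0 : ∀ i, 0 < G i := fun i => hG ▸ Nat.mul_pos (hB0 i) (hH0 i)
  have hHB : ∀ p i, p.Prime → p ∣ H i → p ∣ B i := fun p i hp hd => by
    rw [hH] at hd
    obtain ⟨t, ht, hd⟩ := (hp.prime.dvd_finsetProd_iff _).1 hd
    rw [(Nat.prime_dvd_prime_iff_eq hp ((hq i).2 t ht).1).1 (hp.dvd_of_dvd_pow hd), hB]
    exact ((hq i).2 t ht).2.1
  have hGB : ∀ p i, p.Prime → p ∣ G i → p ∣ B i := fun p i hp hd => by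
    rw [hG] at hd
    exact (hp.dvd_mul.1 hd).elim id (hHB p i hp)
  have hGG : ∀ i j, i ≠ j → (G i).Coprime (G j) := fun i j hij =>
    Nat.coprime_of_dvd fun p hp h1 h2 => hij (huniq p i j hp (hGB p i hp h1) (hGB p j hp h2))
  obtain ⟨π, hπ⟩ : ∃ π : Fin k → ℕ, π = fun i => P₀ * (P₀ / a i) := ⟨_, rfl⟩
  have hπ0 : ∀ i, 0 < π i := fun i =>
    hπ ▸ Nat.mul_pos hP0 (Nat.div_pos (Nat.le_of_dvd hP0 (hPa i)) (h.pos i))
  have hπP : ∀ p i, p.Prime → p ∣ π i → p ∣ P₀ := fun p i hp hd => by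
    rw [hπ] at hd
    exact (hp.dvd_mul.1 hd).elim id fun h' => h'.trans (Nat.div_dvd_of_dvd (hPa i))
  obtain ⟨u, hu⟩ : ∃ u : Fin k → ℕ, u = fun i => π i * H i * ∏ l ∈ univ.erase i, G l := ⟨_, rfl⟩
  obtain ⟨A₀, hA₀⟩ : ∃ A₀, A₀ = P₀ * P₀ * ∏ l, G l := ⟨_, rfl⟩
  have hA₀u : ∀ i, A₀ = (A₁ + a i) * u i := fun i => by
    rw [hA₀, hu, ← mul_prod_erase univ G (mem_univ i), hsplit, hπ, hG]
    dsimp only
    conv_lhs => rw [show P₀ * P₀ = a i * (P₀ * (P₀ / a i)) by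
      rw [mul_left_comm, Nat.mul_div_cancel' (hPa i)]]
    ring
  obtain ⟨P, hP⟩ : ∃ P, P = (∏ l, B l).primeFactors := ⟨_, rfl⟩
  have hPmem : ∀ p ∈ P, p.Prime ∧ ∃ i, p ∣ B i := fun p hp => by
    rw [hP] at hp
    obtain ⟨hpp, hd, -⟩ := Nat.mem_primeFactors.1 hp
    obtain ⟨i, -, hi⟩ := (hpp.prime.dvd_finsetProd_iff _).1 hd
    exact ⟨hpp, i, hi⟩
  obtain ⟨c, hc⟩ : ∃ c : ℕ → ℕ, c = fun p => if ∃ i, p ∣ B i ∧ p ∣ u i + 1 then 2 else 1 :=
    ⟨_, rfl⟩
  obtain ⟨b, hb⟩ := Nat.chineseRemainderOfFinset (fun o : Option ℕ => o.elim 1 c)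
    (fun o => o.elim P₀ id) (insertNone P) (fun o ho => by
      cases o with
      | none => exact hP0.ne'
      | some p => exact ((hPmem p (by simpa using ho)).1).ne_zero)
    (fun o ho o' ho' hne => by
      simp only [Function.onFun]
      cases o with
      | none => cases o' with
        | none => exact absurd rfl hne
        | some p =>
          obtain ⟨hp, i, hi⟩ := hPmem p (by simpa using ho')
          exact (hp.coprime_iff_not_dvd.2 (hBP p i hp hi)).symm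
      | some p => cases o' with
        | none =>
          obtain ⟨hp, i, hi⟩ := hPmem p (by simpa using ho)
          exact hp.coprime_iff_not_dvd.2 (hBP p i hp hi)
        | some p' =>
          exact (Nat.coprime_primes (hPmem p (by simpa using ho)).1
            (hPmem p' (by simpa using ho')).1).2 fun e => hne (congrArg some e))
  obtain ⟨T, hT⟩ : ∃ T, T = b + P₀ * ∏ p ∈ P, p := ⟨_, rfl⟩
  have hT0 : 0 < T := hT ▸ Nat.add_pos_right _
    (Nat.mul_pos hP0 (prod_pos fun p hp => (hPmem p hp).1.pos))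
  have hT1 : T ≡ 1 [MOD P₀] := by
    have h1 : b ≡ 1 [MOD P₀] := by simpa using hb none (by simp)
    simpa [hT] using h1.add (Nat.modEq_zero_iff_dvd.2 (dvd_mul_right P₀ (∏ p ∈ P, p)))
  have hTp : ∀ p ∈ P, T ≡ c p [MOD p] := fun p hp => by
    have h1 : b ≡ c p [MOD p] := by simpa using hb (some p) (by simpa using hp)
    simpa [hT] using h1.add (Nat.modEq_zero_iff_dvd.2
      ((dvd_prod_of_mem (fun p => p) hp).mul_left P₀))
  have hTP : ∀ p, p.Prime → p ∣ P₀ → ¬ p ∣ T := fun p hp h1 h2 =>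
    hp.not_dvd_one (((hT1.of_dvd h1).dvd_iff dvd_rfl).1 h2)
  have hmemP : ∀ p i, p.Prime → p ∣ B i → p ∈ P := fun p i hp hd => hP ▸ Nat.mem_primeFactors.2
    ⟨hp, hd.trans (dvd_prod_of_mem B (mem_univ i)), prod_ne_zero_iff.2 fun l _ => (hB0 l).ne'⟩
  have hTB : ∀ p i, p.Prime → p ∣ B i → ¬ p ∣ T ∧ ¬ p ∣ u i * T + 1 := fun p i hp hd => by
    have h1 := hTp p (hmemP p i hp hd)
    have hp2 : p ≠ 2 := fun e => hBP p i hp hd (e ▸ h2P)
    have h2 : u i * T + 1 ≡ u i * c p + 1 [MOD p] := (h1.mul_left _).add_right 1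
    rw [hc] at h1 h2
    dsimp only at h1 h2
    split_ifs at h1 h2 with hex
    · refine ⟨fun h' => hp2 ((Nat.prime_dvd_prime_iff_eq hp Nat.prime_two).1
        ((h1.dvd_iff dvd_rfl).1 h')), fun h' => ?_⟩
      obtain ⟨l, hl1, hl2⟩ := hex
      obtain rfl := huniq p i l hp hd hl1
      have h3 := (h2.dvd_iff dvd_rfl).1 h'
      have h4 : p ∣ 2 * (u i + 1) := hl2.mul_left 2
      rw [show 2 * (u i + 1) = u i * 2 + 1 + 1 by ring] at h4
      exact hp.not_dvd_one ((Nat.dvd_add_right h3).1 h4)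
    · refine ⟨fun h' => hp.not_dvd_one ((h1.dvd_iff dvd_rfl).1 h'), fun h' => hex ⟨i, hd, ?_⟩⟩
      simpa using (h2.dvd_iff dvd_rfl).1 h'
  have hdiv : ∀ i, A₀ * T / (A₁ + a i) = u i * T := fun i => by
    rw [hA₀u i, mul_assoc, Nat.mul_div_cancel_left _ (Nat.add_pos_left hA₁0 _)]
  have hco' : ∀ i, (s * (A₁ + a i)).Coprime (A₀ * T / (A₁ + a i) + 1) := fun i => by
    rw [hdiv]
    refine Nat.coprime_of_dvd fun p hp h1 h2 => ?_
    rw [hsplit, ← mul_assoc] at h1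
    rcases hp.dvd_mul.1 h1 with h3 | h3
    · refine hp.not_dvd_one ((Nat.dvd_add_right ?_).1 h2)
      rw [hu, hπ]
      exact (((((hp.dvd_mul.1 h3).elim (·.trans hsP) (·.trans (hPa i))).mul_right _).mul_right
        _).mul_right _).mul_right T
    · exact (hTB p i hp h3).2 h2
  have hdA : ∀ i, A₁ + a i ∣ A₀ * T := fun i => hA₀u i ▸ (dvd_mul_right _ _).mul_right T
  have hcard : ∀ i, L * (x i * f (B i) * f (s * (A₀ * T / (A₁ + a i)))) =
      Kc * (∏ l, f (G l)) * f T := fun i => by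
    have hprod : ∀ S : Finset (Fin k), f (∏ l ∈ S, G l) * f 1 = (∏ l ∈ S, f (G l)) * f 1 :=
      fun S => by
        induction S using Finset.induction_on with
        | empty =>
          rw [prod_empty, prod_empty, one_mul]
          conv_rhs => rw [← one_mul 1, hf.map_mul (Nat.coprime_one_left 1)]
        | insert l S hls ih =>
          rw [prod_insert hls, prod_insert hls, hf.map_mul
            (Nat.Coprime.prod_right fun m hm => hGG l m fun e => hls (e ▸ hm)), mul_assoc, ih,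
            mul_assoc]
    have hprod' : ∀ S : Finset (Fin k), f (∏ l ∈ S, G l) = ∏ l ∈ S, f (G l) := fun S =>
      Nat.eq_of_mul_eq_mul_right (hf.pos one_ne_zero) (hprod S)
    have hsπ : ∀ p, p.Prime → p ∣ s * π i → p ∣ P₀ := fun p hp hd =>
      (hp.dvd_mul.1 hd).elim (·.trans hsP) (hπP p i hp)
    have c1 : (s * π i).Coprime (H i) := Nat.coprime_of_dvd fun p hp h1 h2 =>
      hBP p i hp (hHB p i hp h2) (hsπ p hp h1)
    have c2 : (s * π i * H i).Coprime (∏ l ∈ univ.erase i, G l) :=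
      Nat.Coprime.prod_right fun l hl => Nat.coprime_of_dvd fun p hp h1 h2 => by
        rcases hp.dvd_mul.1 h1 with h1 | h1
        · exact hBP p l hp (hGB p l hp h2) (hsπ p hp h1)
        · exact (mem_erase.1 hl).1 (huniq p l i hp (hGB p l hp h2) (hHB p i hp h1))
    have c3 : (s * π i * H i * ∏ l ∈ univ.erase i, G l).Coprime T :=
      Nat.coprime_of_dvd fun p hp h1 h2 => by
        rcases hp.dvd_mul.1 h1 with h1 | h1
        · rcases hp.dvd_mul.1 h1 with h1 | h1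
          · exact hTP p hp (hsπ p hp h1) h2
          · exact (hTB p i hp (hHB p i hp h1)).1 h2
        · obtain ⟨l, -, h1⟩ := (hp.prime.dvd_finsetProd_iff _).1 h1
          exact (hTB p l hp (hGB p l hp h1)).1 h2
    have e1 : f (s * (u i * T)) = f (s * π i) * f (H i) *
        (∏ l ∈ univ.erase i, f (G l)) * f T := by
      rw [hu]
      simp only [← mul_assoc]
      rw [hf.map_mul c3, hf.map_mul c2, hf.map_mul c1, hprod']
    have e2 := hgad i (q i) (B i) (fun t ht => ((hq i).2 t ht).1) (hq i).1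
      (fun t ht => hB ▸ ((hq i).2 t ht).2) (hB0 i)
    rw [show P₀ * (P₀ / a i) = π i by rw [hπ]] at e2
    rw [show (∏ t ∈ J i, q i t ^ E i t) = H i by rw [hH],
      show B i * H i = G i by rw [hG]] at e2
    rw [hdiv, e1, ← mul_prod_erase univ (fun l => f (G l)) (mem_univ i), ← mul_assoc Kc, ← e2]
    ring
  obtain ⟨i₀⟩ : Nonempty (Fin k) := ⟨⟨0, hk⟩⟩
  have hA0T : 0 < A₀ * T :=
    Nat.mul_pos (hA₀ ▸ Nat.mul_pos (Nat.mul_pos hP0 hP0) (prod_pos fun l _ => hG0 l)) hT0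
  have hquot : 0 < A₀ * T / (A₁ + a i₀) :=
    Nat.div_pos (Nat.le_of_dvd hA0T (hdA i₀)) (Nat.add_pos_left hA₁0 _)
  have hmem : ∀ S : Submonoid ℕ, (∀ n, n ≠ 0 → f n ∈ S) → (∀ i, x i ∈ S) →
      x i₀ * f (B i₀) * f (s * (A₀ * T / (A₁ + a i₀))) ∈ S ∧
        ∀ i, x i * f (B i) * f (A₀ * T / (A₁ + a i) + 1) * f s ∈ S := fun S hS hx =>
    ⟨S.mul_mem (S.mul_mem (hx i₀) (hS _ (hB0 i₀).ne')) (hS _ (Nat.mul_pos hs hquot).ne'),
      fun i => S.mul_mem (S.mul_mem (S.mul_mem (hx i) (hS _ (hB0 i).ne'))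
        (hS _ (Nat.succ_ne_zero _))) (hS _ hs.ne')⟩
  subst hB
  refine ⟨_, _, ht.extend hf hs (A := A₀ * T)
    (K := x i₀ * f (A₁ / a i₀ + 1) * f (s * (A₀ * T / (A₁ + a i₀)))) hA0T
    (Nat.mul_pos (Nat.mul_pos (h.wpos i₀) (hf.pos (Nat.succ_ne_zero _)))
      (hf.pos (Nat.mul_pos hs hquot).ne')) hdA hco'
    fun i => Nat.eq_of_mul_eq_mul_left hL ((hcard i).trans (hcard i₀).symm),
    fun S hS hx => Fin.cases (hmem S hS hx).1 (hmem S hS hx).2⟩

theorem posMultiplicative_divisors : PosMultiplicative fun n => n.divisors.card :=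
  ⟨fun h => h.card_divisors_mul, fun h => card_divisors_pos h⟩

/-- The number of unitary divisors. -/
def unitaryCount (n : ℕ) : ℕ := 2 ^ n.primeFactors.card

theorem posMultiplicative_unitaryCount : PosMultiplicative unitaryCount := by
  refine ⟨fun {m n} h => ?_, fun _ => Nat.two_pow_pos _⟩
  rw [unitaryCount, unitaryCount, unitaryCount, ← pow_add, h.primeFactors_mul,
    card_union_of_disjoint h.disjoint_primeFactors]

theorem exists_common_multiple {k : ℕ} {a : Fin k → ℕ} (ha : ∀ i, 0 < a i) {s : ℕ} (hs : 0 < s) :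
    ∃ P₀, 0 < P₀ ∧ 2 ∣ P₀ ∧ s ∣ P₀ ∧ ∀ i, a i ∣ P₀ :=
  ⟨2 * s * ∏ i, a i, Nat.mul_pos (Nat.mul_pos two_pos hs) (prod_pos fun i _ => ha i),
    (dvd_mul_right 2 s).mul_right _, (dvd_mul_left s 2).mul_right _,
    fun i => (dvd_prod_of_mem a (mem_univ i)).mul_left _⟩

theorem compatible_one (f : ℕ → ℕ) (s : ℕ) :
    Compatible f s (fun _ : Fin 1 => 1) fun _ => 1 :=
  ⟨fun _ => one_pos, fun _ => one_pos, fun i j hij => absurd (Subsingleton.elim i j) hij,
    fun _ _ => rfl⟩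

/-- **Heath-Brown's lemma.** -/
theorem exists_compatible {s : ℕ} (hs : 0 < s) : ∀ k : ℕ, 0 < k →
    ∃ a x : Fin k → ℕ, Compatible (fun n => n.divisors.card) s a x := fun k hk => by
  induction k, hk using Nat.le_induction with
  | base => exact ⟨_, _, compatible_one _ s⟩
  | succ k hk ih =>
    obtain ⟨a, x, h⟩ := ih
    obtain ⟨P₀, hP0, h2P, hsP, hPa⟩ := exists_common_multiple h.pos hs
    obtain ⟨C, hC⟩ : ∃ C : Fin k → ℕ,
        C = fun i => 2 * (x i * (s * (P₀ * (P₀ / a i))).divisors.card) := ⟨_, rfl⟩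
    have hC2 : ∀ i, 2 ≤ C i := fun i => hC ▸ Nat.le_mul_of_pos_right 2 (Nat.mul_pos (h.wpos i)
      (card_divisors_pos (Nat.mul_pos hs (Nat.mul_pos hP0
        (Nat.div_pos (Nat.le_of_dvd hP0 (hPa i)) (h.pos i)))).ne'))
    obtain ⟨S, hS⟩ : ∃ S, S = ∏ i, (C i - 1) := ⟨_, rfl⟩
    have hSd : ∀ i, C i - 1 ∣ S := fun i => hS ▸ dvd_prod_of_mem (fun i => C i - 1) (mem_univ i)
    have hS0 : 0 < S := hS ▸ prod_pos fun i _ => Nat.sub_pos_of_lt (hC2 i)
    obtain ⟨n, hn⟩ : ∃ n : Fin k → ℕ, n = fun i => S / (C i - 1) := ⟨_, rfl⟩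
    have hn0 : ∀ i, 0 < n i := fun i =>
      hn ▸ Nat.div_pos (Nat.le_of_dvd hS0 (hSd i)) (Nat.sub_pos_of_lt (hC2 i))
    have hlen : ∀ i, n i * C i - n i = S := fun i => by
      rw [hn, ← Nat.mul_sub_one, Nat.div_mul_cancel (hSd i)]
    obtain ⟨a', x', h', -⟩ := exists_compatible_succ posMultiplicative_divisors hs hk h hP0 h2P hsP
      hPa (fun i => Ico (n i) (n i * C i)) (fun _ t => t - 1) two_pos (Kc := 2 ^ S)
      fun i q B hq hinj hB _ => by
        have hg := gadget (hn0 i) ((one_le_two).trans (hC2 i)) hq hinj hB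
        rw [hlen i] at hg
        rw [← hg, hC]
        ring
    exact ⟨a', x', h'⟩

/-- **The lemma for the number of distinct prime factors.** -/
theorem exists_compatible_unitary {s : ℕ} (hs : 0 < s) : ∀ k : ℕ, 0 < k →
    ∃ a y : Fin k → ℕ, Compatible unitaryCount s a fun i => 2 ^ y i := fun k hk => by
  induction k, hk using Nat.le_induction with
  | base => exact ⟨_, fun _ => 0, by simpa using compatible_one unitaryCount s⟩
  | succ k hk ih =>
    obtain ⟨a, y, h⟩ := ih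
    obtain ⟨P₀, hP0, h2P, hsP, hPa⟩ := exists_common_multiple h.pos hs
    have hπ : ∀ i, (s * (P₀ * (P₀ / a i))).primeFactors = P₀.primeFactors := fun i => by
      have hd0 : P₀ / a i ≠ 0 := (Nat.div_pos (Nat.le_of_dvd hP0 (hPa i)) (h.pos i)).ne'
      rw [Nat.primeFactors_mul hs.ne' (mul_ne_zero hP0.ne' hd0), Nat.primeFactors_mul hP0.ne' hd0,
        union_eq_left.2 (Nat.primeFactors_mono (Nat.div_dvd_of_dvd (hPa i)) hP0.ne'),
        union_eq_right.2 (Nat.primeFactors_mono hsP hP0.ne')]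
    obtain ⟨a', x', h', hmem⟩ := exists_compatible_succ posMultiplicative_unitaryCount hs hk h hP0
      h2P hsP hPa (fun i => range ((∑ l, y l) - y i)) (fun _ _ => 1) one_pos
      (Kc := 2 ^ ((∑ l, y l) + P₀.primeFactors.card)) fun i q B hq hinj hB hB0 => by
        have hdvd : ∀ t ∈ range ((∑ l, y l) - y i), q t ∈ B.primeFactors := fun t ht =>
          Nat.mem_primeFactors.2 ⟨hq t ht, (hB t ht).1, hB0.ne'⟩
        simp only [pow_one]
        have hH : (∏ t ∈ range ((∑ l, y l) - y i), q t).primeFactors =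
            (range ((∑ l, y l) - y i)).image q := by
          rw [← prod_image (f := fun p => p) hinj, Nat.primeFactors_prod]
          intro p hp
          obtain ⟨t, ht, rfl⟩ := mem_image.1 hp
          exact hq t ht
        have hne : ∏ t ∈ range ((∑ l, y l) - y i), q t ≠ 0 :=
          prod_ne_zero_iff.2 fun t ht => (hq t ht).ne_zero
        simp only [unitaryCount]
        rw [Nat.primeFactors_mul hB0.ne' hne, hH, union_eq_left.2 fun p hp => by
            obtain ⟨t, ht, rfl⟩ := mem_image.1 hp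
            exact hdvd t ht, card_image_of_injOn hinj, card_range, hπ]
        have hy : y i ≤ ∑ l, y l := single_le_sum (fun _ _ => Nat.zero_le _) (mem_univ i)
        simp only [one_mul, ← pow_add]
        congr 1
        omega
    have hpow : ∀ i, ∃ z, x' i = 2 ^ z := fun i => by
      obtain ⟨z, hz⟩ := Submonoid.mem_powers_iff _ _ |>.1 (hmem (Submonoid.powers 2)
        (fun n _ => ⟨_, rfl⟩) (fun i => ⟨_, rfl⟩) i)
      exact ⟨z, hz.symm⟩
    choose z hz using hpow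
    exact ⟨a', z, by rwa [← funext hz]⟩

end FA.ConsecutiveDivisors

end
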