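import Fermat.Agent.ConsecutiveDivisors.Forms
import Mathlib.Analysis.SpecialFunctions.Pow.Asymptotics
import Mathlib.Algebra.BigOperators.Intervals

/-!
# Two forms with equally many prime factors

For `500` forms the `j < N` whose values are free of primes below `N ^ (1 / u)` number
`≫ N / (log N) ^ 500`. Each value has on their average at most `1.1 (log u + 13)` prime factors,
so rarely do all the values have different numbers of them, and rarely is one not squarefree.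
-/

set_option autoImplicit false

noncomputable section

namespace FA.ConsecutiveDivisors

open Finset Filter
open FA.CombinatorialSieve (sievingPrimes sievingProd primeFactors_sievingProd mem_sievingPrimes
  squarefree_sievingProd remSum sieveProduct)
open scoped Nat

/-- The exponent of the level. -/
def levelExp (k : ℕ) : ℕ := 9 * k + 1 + 10 * (11 * k + k ^ 2 * (k + 1)) + 8

variable {k D : ℕ} (F : FormSystem k D)

namespace FormSystem

/-- The main factor of the sieve. -/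
def density (_F : FormSystem k D) (Z : ℝ) : ℝ := ∏ p ∈ sievingPrimes Z D !, (1 - (k : ℝ) / p)

include F in
theorem dimension (Z : ℝ) : CombinatorialSieve.DimensionBound (sievingPrimes Z D !)
    (fun p : ℕ => (k : ℝ) / p) Z k (Real.exp (11 * k + (k : ℝ) ^ 2 * (k + 1))) := by
  refine CombinatorialSieve.dimensionBound_of_le (Nat.cast_nonneg k) (by positivity)
    (fun p hp => ⟨(mem_sievingPrimes.1 hp).1, (mem_sievingPrimes.1 hp).2.1⟩) (fun p hp => ?_)
    fun p hp => ?_ <;> obtain ⟨hpp, hDp⟩ := prime_mem_sievingPrimes hp <;>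
    have hk : (k : ℝ) + 1 ≤ p := by exact_mod_cast Nat.succ_le_of_lt (F.le.trans_lt hDp)
  · exact ⟨by positivity, (div_lt_one (by linarith [Nat.cast_nonneg (α := ℝ) k])).2 (by linarith)⟩
  · have hk0 : (0 : ℝ) ≤ k := Nat.cast_nonneg k
    have hp0 : (0 : ℝ) < p := by linarith
    have hd : (0 : ℝ) < (p : ℝ) - k := by linarith
    have e : (k : ℝ) / p / (1 - (k : ℝ) / p) =
        (k : ℝ) / p + (k : ℝ) ^ 2 / ((p : ℝ) * ((p : ℝ) - k)) := by
      field_simp
      ring
    rw [e]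
    refine add_le_add le_rfl ?_
    rw [div_le_div_iff₀ (mul_pos hp0 hd) (pow_pos hp0 2), mul_assoc ((k : ℝ) ^ 2)]
    refine mul_le_mul_of_nonneg_left ?_ (sq_nonneg _)
    have h1 := mul_le_mul_of_nonneg_left
      (show (p : ℝ) ≤ ((k : ℝ) + 1) * ((p : ℝ) - k) by
        linarith [mul_nonneg hk0 (show (0 : ℝ) ≤ (p : ℝ) - k - 1 by linarith)]) hp0.le
    linarith

theorem density_pos (Z : ℝ) : 0 < F.density Z :=
  prod_pos fun p hp => by
    obtain ⟨hpp, hDp⟩ := prime_mem_sievingPrimes hp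
    rw [sub_pos, div_lt_one (Nat.cast_pos.2 hpp.pos)]
    exact Nat.cast_lt.2 (F.le.trans_lt hDp)

theorem abs_sieve_sub_le (S : Finset ℕ) {X Z : ℝ} (hX : 0 ≤ X) (hZ : 2 ≤ Z) :
    |((F.sieve S X Z).siftedSum) - X * F.density Z| ≤
      1 / 10 * (X * F.density Z) + remSum (F.sieve S X Z) (Z ^ levelExp k) := by
  have hprimes : (F.sieve S X Z).prodPrimes.primeFactors = sievingPrimes Z D ! :=
    primeFactors_sievingProd Z D !
  have hnu : ∀ p ∈ sievingPrimes Z D !, (F.sieve S X Z).nu p = (k : ℝ) / p := fun p hp => by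
    have hpp := (prime_mem_sievingPrimes hp).1
    show ArithmeticFunction.prodPrimeFactors (fun p => (k : ℝ) / p) p = _
    rw [ArithmeticFunction.prodPrimeFactors_apply hpp.ne_zero, hpp.primeFactors, prod_singleton]
  have h := CombinatorialSieve.fundamental_lemma (F.sieve S X Z) (Z := Z) (κ := k)
    (K := Real.exp (11 * k + (k : ℝ) ^ 2 * (k + 1))) (s := (levelExp k : ℕ)) (β := 9 * k + 1)
    hX (fun p hp => by rw [hprimes] at hp; exact (mem_sievingPrimes.1 hp).2.1) hZ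
    (Nat.cast_nonneg k) (by push_cast; linarith) (by have := F.kpos; omega)
    (Real.one_le_exp (by positivity)) (Nat.cast_le.2 (by rw [levelExp]; omega))
    (fun w hw hwZ => by
      rw [hprimes]
      refine le_trans (le_of_eq ?_) (F.dimension Z w hw hwZ)
      exact prod_congr rfl fun p hp => by rw [hnu p (mem_filter.1 hp).1])
  have hV : (∏ p ∈ (F.sieve S X Z).prodPrimes.primeFactors, (1 - (F.sieve S X Z).nu p)) =
      F.density Z := by
    rw [hprimes, density]
    exact prod_congr rfl fun p hp => by rw [hnu p hp]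
  rw [show sieveProduct (F.sieve S X Z) = F.density Z from hV,
    show (F.sieve S X Z).totalMass = X from rfl, Real.rpow_natCast] at h
  refine h.trans (add_le_add (mul_le_mul_of_nonneg_right ?_
    (mul_nonneg hX (F.density_pos Z).le)) le_rfl)
  rw [← Real.exp_nat_mul, mul_assoc, mul_assoc, ← Real.exp_add, ← Real.exp_add,
    show ((9 * k + 1 : ℕ) : ℝ) + (((10 : ℕ) : ℝ) * (11 * k + (k : ℝ) ^ 2 * (k + 1)) +
      -((levelExp k : ℕ) : ℝ)) = -8 by rw [levelExp]; push_cast; ring,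
    Real.exp_neg, ← div_eq_mul_inv, div_le_iff₀ (Real.exp_pos 8)]
  have h1 : (2.7 : ℝ) ^ 8 ≤ Real.exp 8 := by
    rw [show (8 : ℝ) = ((8 : ℕ) : ℝ) * 1 by norm_num, Real.exp_nat_mul]
    exact pow_le_pow_left₀ (by norm_num) (by linarith [Real.exp_one_gt_d9]) 8
  norm_num at h1 ⊢
  linarith

theorem remSum_le (S : Finset ℕ) {X Z : ℝ} (hZ : 2 ≤ Z)
    (h : ∀ d, d ∣ sievingProd Z D ! → |(F.sieve S X Z).rem d| ≤ d) :
    remSum (F.sieve S X Z) (Z ^ levelExp k) ≤ Z ^ (2 * levelExp k) := by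
  have hW : (1 : ℝ) ≤ Z ^ levelExp k := one_le_pow₀ (by linarith)
  rw [remSum, pow_mul', sq]
  refine (sum_le_card_nsmul _ _ (Z ^ levelExp k) fun d hd =>
    (h d (Nat.dvd_of_mem_divisors (mem_filter.1 hd).1)).trans (mem_filter.1 hd).2.le).trans ?_
  rw [nsmul_eq_mul]
  refine mul_le_mul_of_nonneg_right (le_trans (Nat.cast_le.2 ((card_le_card (t := Icc 1
    ⌊Z ^ levelExp k⌋₊) fun d hd => ?_).trans (Nat.card_Icc _ _).le))
      (Nat.floor_le (by linarith))) (by linarith)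
  exact mem_Icc.2 ⟨Nat.pos_of_mem_divisors (mem_filter.1 hd).1,
    Nat.le_floor (mem_filter.1 hd).2.le⟩

open scoped Classical in
/-- The `j < N` with rough values. -/
def roughSet (Z : ℝ) (N : ℕ) : Finset ℕ := (range N).filter (F.IsRough Z)

theorem le_card_roughSet {Z : ℝ} (hZ : 2 ≤ Z) (N : ℕ) :
    9 / 10 * (N * F.density Z) - Z ^ (2 * levelExp k) ≤ ((F.roughSet Z N).card : ℝ) ∧
      ((F.roughSet Z N).card : ℝ) ≤ 11 / 10 * (N * F.density Z) + Z ^ (2 * levelExp k) := by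
  classical
  have h := abs_le.1 (F.abs_sieve_sub_le (range N) (Nat.cast_nonneg N) hZ)
  have hr := F.remSum_le (range N) (X := N) hZ fun d hd => F.abs_sieve_rem_le hd
  rw [F.sieve_siftedSum] at h
  rw [roughSet]
  constructor <;> linarith [h.1, h.2]

open scoped Classical in
theorem card_rough_dvd_le {Z : ℝ} (hZ : 2 ≤ Z) (N : ℕ) (i : Fin k) {p : ℕ} (hp : p.Prime)
    (hDp : D < p) (hpZ : Z ≤ p) :
    (((F.roughSet Z N).filter fun j => p ∣ F.val i j).card : ℝ) ≤
      11 / 10 * ((N : ℝ) / p * F.density Z) + Z ^ (2 * levelExp k) := by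
  have h := abs_le.1 (F.abs_sieve_sub_le ((range N).filter fun j => p ∣ F.val i j)
    (X := (N : ℝ) / p) (by positivity) hZ)
  have hr := F.remSum_le ((range N).filter fun j => p ∣ F.val i j) (X := (N : ℝ) / p) hZ
    fun d hd => F.abs_sieve_rem_dvd_le hd i hp hDp hpZ
  rw [F.sieve_siftedSum, filter_comm] at h
  rw [roughSet]
  linarith [h.2]

/-- Few prime factors beyond the square root. -/
theorem card_large_factor_le {i : Fin k} {j N : ℕ} (hj : j < N) (hN : F.size ^ 2 < N) :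
    ((F.val i j).primeFactors.filter fun p => N < p ^ 2).card ≤ 2 := by
  by_contra hc
  obtain ⟨T, hT, hT3⟩ := exists_subset_card_eq (Nat.succ_le_of_lt (not_le.1 hc))
  replace hT3 : T.card = 3 := hT3
  have h1 : ∏ p ∈ T, p ∣ F.val i j := (prod_dvd_prod_of_subset _ _ _
    (hT.trans (filter_subset _ _))).trans (Nat.prod_primeFactors_dvd _)
  have h2 : N ^ 3 ≤ (∏ p ∈ T, p) ^ 2 := by
    rw [← hT3, ← prod_pow, ← prod_const]
    exact prod_le_prod' fun p hp => (mem_filter.1 (hT hp)).2.le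
  have h3 := h2.trans (Nat.pow_le_pow_left ((Nat.le_of_dvd (F.val_pos i j) h1).trans
    (F.val_le hj)) 2)
  rw [mul_pow, pow_succ' N 2] at h3
  exact absurd (Nat.le_of_mul_le_mul_right h3 (pow_pos (by omega) 2)) (not_le.2 hN)

open scoped Classical in
/-- **The average number of prime factors of a value.** -/
theorem sum_card_primeFactors_le {Z u : ℝ} {N : ℕ} (hZ : 2 ≤ Z) (hZN : Z ≤ N)
    (hu : Real.log N ≤ u * Real.log Z) (hN : F.size ^ 2 < N) (i : Fin k) :
    ∑ j ∈ F.roughSet Z N, ((F.val i j).primeFactors.card : ℝ) ≤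
      11 / 10 * (N * F.density Z) * (Real.log u + 13) +
        Z ^ (2 * levelExp k) * (2 * √(N : ℝ) + 2) := by
  obtain ⟨T, hT⟩ : ∃ T : Finset ℕ,
      T = (range N).filter fun p : ℕ => p.Prime ∧ Z ≤ p ∧ D < p ∧ p ^ 2 ≤ N := ⟨_, rfl⟩
  have hlZ : 0 < Real.log Z := Real.log_pos (by linarith)
  have hpt : ∀ j ∈ F.roughSet Z N, ((F.val i j).primeFactors.card : ℝ) ≤
      (∑ p ∈ T, if p ∣ F.val i j then (1 : ℝ) else 0) + 2 := fun j hj => by
    rw [roughSet, mem_filter, mem_range] at hj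
    rw [sum_boole, ← card_filter_add_card_filter_not (s := (F.val i j).primeFactors)
      (fun p => N < p ^ 2), Nat.cast_add, add_comm]
    refine add_le_add (Nat.cast_le.2 (card_le_card fun p hp => ?_))
      (Nat.cast_le.2 (F.card_large_factor_le hj.1 hN) |>.trans_eq Nat.cast_ofNat)
    obtain ⟨hp, hpN⟩ := mem_filter.1 hp
    obtain ⟨hpp, hd, -⟩ := Nat.mem_primeFactors.1 hp
    rw [not_lt] at hpN
    refine mem_filter.2 ⟨hT ▸ mem_filter.2 ⟨mem_range.2 ?_, hpp, ?_, ?_, hpN⟩, hd⟩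
    · exact lt_of_lt_of_le (by rw [sq]; exact lt_mul_of_one_lt_left hpp.pos hpp.one_lt) hpN
    · exact not_lt.1 fun h => hj.2 i p hpp h hd
    · exact not_le.1 fun h => F.not_dvd_val_of_le hpp h j hd
  refine (sum_le_sum hpt).trans ?_
  rw [sum_add_distrib, sum_comm, sum_const, nsmul_eq_mul]
  obtain ⟨-, hrough⟩ := F.le_card_roughSet hZ N
  have hTp : ∀ p ∈ T, p.Prime ∧ Z ≤ p ∧ D < p ∧ p ^ 2 ≤ N ∧ p < N := fun p hp => by
    rw [hT, mem_filter, mem_range] at hp
    exact ⟨hp.2.1, hp.2.2.1, hp.2.2.2.1, hp.2.2.2.2, hp.1⟩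
  have hsum : ∑ p ∈ T, ∑ j ∈ F.roughSet Z N, (if p ∣ F.val i j then (1 : ℝ) else 0) ≤
      11 / 10 * (N * F.density Z) * ∑ p ∈ T, (p : ℝ)⁻¹ + T.card * Z ^ (2 * levelExp k) := by
    rw [mul_sum, show (T.card : ℝ) * Z ^ (2 * levelExp k) = ∑ _p ∈ T, Z ^ (2 * levelExp k) by
      rw [sum_const, nsmul_eq_mul], ← sum_add_distrib]
    refine sum_le_sum fun p hp => ?_
    rw [sum_boole]
    exact (F.card_rough_dvd_le hZ N i (hTp p hp).1 (hTp p hp).2.2.1 (hTp p hp).2.1).trans_eq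
      (by ring)
  have hmert : ∑ p ∈ T, (p : ℝ)⁻¹ ≤ Real.log u + 11 := by
    refine (CombinatorialSieve.sum_prime_inv_le hZ hZN fun p hp =>
      ⟨(hTp p hp).1, (hTp p hp).2.1, Nat.cast_lt.2 (hTp p hp).2.2.2.2⟩).trans ?_
    have hlN : 0 < Real.log N := hlZ.trans_le (Real.log_le_log (by linarith) hZN)
    have hu0 : 0 < u := pos_of_mul_pos_left (hlN.trans_le hu) hlZ.le
    have := Real.log_le_log hlN hu
    rw [Real.log_mul hu0.ne' hlZ.ne'] at this
    linarith
  have hcard : (T.card : ℝ) ≤ 2 * √(N : ℝ) := by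
    have hsub : T ⊆ Icc 1 ⌊√(N : ℝ)⌋₊ := fun p hp => mem_Icc.2 ⟨(hTp p hp).1.one_le,
      Nat.le_floor (Real.le_sqrt_of_sq_le (by exact_mod_cast (hTp p hp).2.2.2.1))⟩
    refine le_trans (Nat.cast_le.2 (card_le_card hsub)) ?_
    rw [Nat.card_Icc, Nat.add_sub_cancel]
    exact (Nat.floor_le (Real.sqrt_nonneg _)).trans (by linarith [Real.sqrt_nonneg (N : ℝ)])
  have hV := F.density_pos Z
  have hW : 0 ≤ Z ^ (2 * levelExp k) := pow_nonneg (by linarith) _
  have h1 := mul_le_mul_of_nonneg_left hmert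
    (show 0 ≤ 11 / 10 * (N * F.density Z) by positivity)
  have h2 := mul_le_mul_of_nonneg_right hcard hW
  linarith

open scoped Classical in
/-- The `j` with a value that is not squarefree. -/
def squareSet (Z : ℝ) (N : ℕ) : Finset ℕ :=
  (F.roughSet Z N).filter fun j => ∃ i, ¬ Squarefree (F.val i j)

theorem card_squareSet_le {Z : ℝ} (hZ : 2 ≤ Z) (N : ℕ) :
    ((F.squareSet Z N).card : ℝ) ≤ k * (2 / Z * N + √((F.size : ℝ) * N) + 1) := by
  classical
  obtain ⟨M, hM⟩ : ∃ M, M = ⌊√((F.size : ℝ) * N)⌋₊ := ⟨_, rfl⟩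
  obtain ⟨L, hL⟩ : ∃ L, L = ⌈Z⌉₊ := ⟨_, rfl⟩
  have hL2 : 2 ≤ L := hL ▸ Nat.ofNat_le_cast.1 (hZ.trans (Nat.le_ceil Z))
  obtain ⟨T, hT⟩ : ∃ T : Finset ℕ,
      T = (Ioo (L - 1) (M + 1)).filter fun q => q.Prime ∧ D < q := ⟨_, rfl⟩
  have hsub : F.squareSet Z N ⊆ (univ : Finset (Fin k)).biUnion fun i =>
      T.biUnion fun q => (range N).filter fun j => q ^ 2 ∣ F.val i j := fun j hj => by
    rw [squareSet, roughSet, mem_filter, mem_filter, mem_range] at hj
    obtain ⟨⟨hjN, hr⟩, i, hi⟩ := hj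
    rw [Nat.squarefree_iff_prime_squarefree] at hi
    push Not at hi
    obtain ⟨q, hq, hd⟩ := hi
    refine mem_biUnion.2 ⟨i, mem_univ i, mem_biUnion.2 ⟨q, hT ▸ mem_filter.2 ⟨mem_Ioo.2 ⟨?_, ?_⟩,
      hq, ?_⟩, mem_filter.2 ⟨mem_range.2 hjN, by rwa [sq]⟩⟩⟩
    · have : L ≤ q := hL ▸ Nat.ceil_le.2 (not_lt.1 fun h =>
        hr i q hq h ((dvd_mul_right q q).trans hd))
      omega
    · refine Nat.lt_succ_of_le (hM ▸ Nat.le_floor (Real.le_sqrt_of_sq_le ?_))
      exact_mod_cast (sq q).trans_le ((Nat.le_of_dvd (F.val_pos i j) hd).trans (F.val_le hjN))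
    · exact not_le.1 fun h => F.not_dvd_val_of_le hq h j ((dvd_mul_right q q).trans hd)
  have hone : ∀ i, ∀ q ∈ T, (((range N).filter fun j => q ^ 2 ∣ F.val i j).card : ℝ) ≤
      ((q : ℝ) ^ 2)⁻¹ * N + 1 := fun i q hq => by
    rw [hT, mem_filter] at hq
    have hm : 0 < q ^ 2 := pow_pos hq.2.1.pos 2
    have hρ : (((range (q ^ 2)).filter fun c => q ^ 2 ∣ F.val i c).card : ℝ) ≤ 1 :=
      Nat.cast_le_one.2 (F.card_roots_le_one (Nat.Coprime.pow_left 2
        (hq.2.1.coprime_iff_not_dvd.2 (F.large i q hq.2.1 hq.2.2))))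
    have h := (abs_le.1 (abs_count_periodic_le (P := fun c => q ^ 2 ∣ F.val i c) hm
      (F.dvd_val_mod i (q ^ 2)) N)).2
    have h' := mul_le_mul_of_nonneg_right
      (div_le_div_of_nonneg_right hρ (Nat.cast_nonneg (α := ℝ) (q ^ 2)))
      (Nat.cast_nonneg (α := ℝ) N)
    rw [Nat.cast_pow, one_div] at h'
    rw [Nat.cast_pow] at h
    linarith
  refine (Nat.cast_le.2 ((card_le_card hsub).trans (card_biUnion_le.trans
    (sum_le_sum fun i _ => card_biUnion_le)))).trans ?_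
  rw [Nat.cast_sum]
  refine (sum_le_card_nsmul _ _ (2 / Z * N + √((F.size : ℝ) * N) + 1) fun i _ => ?_).trans_eq
    (by rw [card_univ, Fintype.card_fin, nsmul_eq_mul])
  rw [Nat.cast_sum]
  refine (sum_le_sum (hone i)).trans ?_
  rw [sum_add_distrib, ← sum_mul, sum_const, nsmul_one, add_assoc]
  refine add_le_add (mul_le_mul_of_nonneg_right ?_ (Nat.cast_nonneg N)) ?_
  · refine (sum_le_sum_of_subset_of_nonneg (hT ▸ filter_subset _ _)
      fun q _ _ => by positivity).trans ((sum_Ioo_inv_sq_le (L - 1) (M + 1)).trans ?_)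
    rw [← Nat.cast_add_one, Nat.sub_add_cancel (by omega)]
    exact div_le_div_of_nonneg_left (by norm_num) (by linarith) (hL ▸ Nat.le_ceil Z)
  · refine le_trans (Nat.cast_le.2 ((card_le_card (t := Icc 1 M) fun q hq => ?_).trans
      (Nat.card_Icc 1 M).le)) (by
        rw [Nat.add_sub_cancel, hM]
        linarith [Nat.floor_le (Real.sqrt_nonneg ((F.size : ℝ) * N))])
    rw [hT, mem_filter, mem_Ioo] at hq
    exact mem_Icc.2 ⟨hq.2.1.one_le, Nat.lt_succ_iff.1 hq.1.2⟩

end FormSystem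

/-- Distinct natural numbers are not small on the average. -/
theorem card_mul_le_two_mul_sum (s : Finset ℕ) : s.card * (s.card - 1) ≤ 2 * ∑ x ∈ s, x := by
  induction s using Finset.induction_on_max with
  | empty => simp
  | insert a s ha ih =>
    have hns : a ∉ s := fun h => lt_irrefl a (ha a h)
    have hc : s.card ≤ a := by
      simpa using card_le_card (t := range a) fun x hx => mem_range.2 (ha x hx)
    rw [card_insert_of_notMem hns, sum_insert hns, Nat.add_sub_cancel]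
    rcases Nat.eq_zero_or_pos s.card with h0 | h0
    · simp [h0]
    obtain ⟨c, e⟩ := Nat.exists_eq_add_of_le h0
    rw [e, Nat.add_sub_cancel_left] at ih
    rw [e] at hc ⊢
    linarith

theorem le_two_mul_sum_of_injective {k : ℕ} {f : Fin k → ℕ} (hf : Function.Injective f) :
    k * (k - 1) ≤ 2 * ∑ i, f i := by
  classical
  have h := card_mul_le_two_mul_sum (univ.image f)
  rwa [card_image_of_injective _ hf, card_univ, Fintype.card_fin,
    sum_image fun _ _ _ _ e => hf e] at h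

theorem log_pow_eventually_le (k : ℕ) {a : ℝ} (ha : a < 1) {ε : ℝ} (hε : 0 < ε) :
    ∀ᶠ N : ℕ in atTop, (N : ℝ) ^ a * Real.log N ^ k ≤ ε * N := by
  have h := (isLittleO_log_rpow_rpow_atTop (k : ℝ) (show 0 < 1 - a by linarith)).def hε
  filter_upwards [tendsto_natCast_atTop_atTop.eventually h, eventually_gt_atTop 0] with N hN hN0
  have hN' : (0 : ℝ) < N := Nat.cast_pos.2 hN0
  rw [Real.rpow_natCast, Real.norm_eq_abs, Real.norm_eq_abs,
    abs_of_nonneg (pow_nonneg (Real.log_natCast_nonneg N) k),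
    abs_of_nonneg (Real.rpow_nonneg hN'.le _)] at hN
  refine (mul_le_mul_of_nonneg_left hN (Real.rpow_nonneg hN'.le a)).trans (le_of_eq ?_)
  rw [mul_left_comm, ← Real.rpow_add hN', add_sub_cancel, Real.rpow_one]

open scoped Classical in
/-- The `j < N` with two squarefree values with equally many prime factors. -/
def FormSystem.goodSet (N : ℕ) : Finset ℕ :=
  (range N).filter fun j => ∃ i l, i ≠ l ∧ Squarefree (F.val i j) ∧ Squarefree (F.val l j) ∧
    (F.val i j).primeFactors.card = (F.val l j).primeFactors.card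

/-- **Two values with equally many prime factors.** -/
theorem FormSystem.exists_card_goodSet (hk : k = 500) : ∃ c : ℝ, 0 < c ∧ ∀ᶠ N : ℕ in atTop,
    c * N / Real.log N ^ k ≤ ((F.goodSet N).card : ℝ) := by
  classical
  obtain ⟨s, hs⟩ : ∃ s, s = levelExp k := ⟨_, rfl⟩
  obtain ⟨u, hu⟩ : ∃ u : ℝ, u = 8 * s := ⟨_, rfl⟩
  have hs1 : 1 ≤ s := by rw [hs, levelExp]; omega
  have hs0 : (0 : ℝ) < s := Nat.cast_pos.2 hs1
  have hu0 : 0 < u := by rw [hu]; positivity
  have hlogu : Real.log u ≤ 24 := by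
    have h1 : u ≤ 2 ^ 34 := by rw [hu, hs, levelExp, hk]; norm_num
    refine (Real.log_le_log hu0 h1).trans ?_
    rw [Real.log_pow]
    norm_num
    linarith [Real.log_two_lt_d9]
  obtain ⟨K, hK⟩ : ∃ K : ℝ, K = Real.exp (11 * k + (k : ℝ) ^ 2 * (k + 1)) := ⟨_, rfl⟩
  obtain ⟨c₀, hc₀⟩ : ∃ c₀ : ℝ, c₀ = K⁻¹ * (u * Real.log 2) ^ k := ⟨_, rfl⟩
  have hK0 : 0 < K := hK ▸ Real.exp_pos _
  have hl2 := Real.log_pos one_lt_two
  have hc0 : 0 < c₀ := by rw [hc₀]; positivity
  refine ⟨c₀ / 2, by positivity, ?_⟩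
  obtain ⟨η, hη⟩ : ∃ η : ℝ, η = 1 / u := ⟨_, rfl⟩
  have hη0 : 0 < η := hη ▸ by positivity
  have hη4 : η * (2 * s : ℕ) = 1 / 4 := by
    rw [hη, hu]
    push_cast
    field_simp
    norm_num
  filter_upwards [eventually_gt_atTop (F.size ^ 2), eventually_gt_atTop 1,
    ((tendsto_rpow_atTop hη0).comp tendsto_natCast_atTop_atTop).eventually_ge_atTop 2,
    log_pow_eventually_le k (show (3 / 4 : ℝ) < 1 by norm_num)
      (show 0 < c₀ / 100000 by positivity),
    log_pow_eventually_le k (show 1 - η < 1 by linarith) (show 0 < c₀ / 100000 by positivity),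
    log_pow_eventually_le k (show (1 / 2 : ℝ) < 1 by norm_num)
      (show 0 < c₀ / (100000 * ((F.size : ℝ) + 1)) by positivity)]
    with N hNsize hN1 hZ hE1 hE2 hE3
  simp only [Function.comp_apply] at hZ
  obtain ⟨Z, hZdef⟩ : ∃ Z : ℝ, Z = (N : ℝ) ^ η := ⟨_, rfl⟩
  rw [← hZdef] at hZ
  have hN0 : (0 : ℝ) < N := Nat.cast_pos.2 (by omega)
  have hN1' : (1 : ℝ) ≤ N := Nat.one_le_cast.2 hN1.le
  have hL : 0 < Real.log N := Real.log_pos (Nat.one_lt_cast.2 hN1)
  have hLk : 0 < Real.log N ^ k := pow_pos hL k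
  have hlogZ : Real.log Z = η * Real.log N := by rw [hZdef, Real.log_rpow hN0]
  have hη1 : η ≤ 1 := by
    have h1 : (1 : ℝ) ≤ (2 * s : ℕ) := Nat.one_le_cast.2 (by omega)
    have := mul_le_mul_of_nonneg_left h1 hη0.le
    linarith
  have hZN : Z ≤ N := hZdef ▸ (Real.rpow_le_rpow_of_exponent_le hN1' hη1).trans_eq (Real.rpow_one _)
  have hW : Z ^ (2 * s) = (N : ℝ) ^ (1 / 4 : ℝ) := by
    rw [hZdef, ← Real.rpow_natCast ((N : ℝ) ^ η), ← Real.rpow_mul hN0.le, hη4]
  obtain ⟨X, hX⟩ : ∃ X, X = (N : ℝ) * F.density Z := ⟨_, rfl⟩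
  have hXlow : c₀ * N / Real.log N ^ k ≤ X := by
    have h := CombinatorialSieve.inv_mul_rpow_le_prod hK0 hZ
      (fun p hp => (prime_mem_sievingPrimes hp).1.two_le) (fun p hp => by
        obtain ⟨hpp, hDp⟩ := prime_mem_sievingPrimes hp
        rw [div_lt_one (Nat.cast_pos.2 hpp.pos)]
        exact Nat.cast_lt.2 (F.le.trans_lt hDp)) (hK ▸ F.dimension Z)
    rw [Real.rpow_natCast, hlogZ, hη, show Real.log 2 / (1 / u * Real.log N) =
      u * Real.log 2 / Real.log N by field_simp, div_pow] at h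
    rw [hX, hc₀]
    refine le_trans (le_of_eq ?_) (mul_le_mul_of_nonneg_left h hN0.le)
    ring
  have hsmall : ∀ {a ε : ℝ}, (N : ℝ) ^ a * Real.log N ^ k ≤ c₀ * ε * N → 0 ≤ ε →
      (N : ℝ) ^ a ≤ ε * X := fun {a ε} h hε => by
    rw [← le_div_iff₀ hLk] at h
    refine h.trans ((le_of_eq ?_).trans (mul_le_mul_of_nonneg_left hXlow hε))
    ring
  have e1 : (N : ℝ) ^ (3 / 4 : ℝ) ≤ 1 / 100000 * X := hsmall (hE1.trans_eq (by ring)) (by norm_num)
  have e2 : 2 / Z * N ≤ 2 / 100000 * X := by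
    have h := hsmall (ε := 1 / 100000) (hE2.trans_eq (by ring)) (by norm_num)
    rw [Real.rpow_sub hN0, Real.rpow_one, ← hZdef] at h
    rw [show 2 / Z * (N : ℝ) = 2 * ((N : ℝ) / Z) by ring]
    linarith
  have e3 : √((F.size : ℝ) * N) + 1 ≤ 1 / 100000 * X := by
    have h := hsmall (ε := 1 / (100000 * ((F.size : ℝ) + 1))) (hE3.trans_eq (by ring))
      (by positivity)
    rw [← Real.sqrt_eq_rpow] at h
    have h1 : 1 ≤ √(N : ℝ) := Real.one_le_sqrt.2 hN1'
    have h2 : √((F.size : ℝ) * N) ≤ F.size * √(N : ℝ) := by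
      rw [Real.sqrt_mul (Nat.cast_nonneg _)]
      refine mul_le_mul_of_nonneg_right ?_ (Real.sqrt_nonneg _)
      rw [Real.sqrt_le_iff]
      refine ⟨Nat.cast_nonneg _, ?_⟩
      exact_mod_cast Nat.le_self_pow two_ne_zero F.size
    rw [div_mul_eq_mul_div, one_mul, le_div_iff₀ (by positivity)] at h
    linarith
  have e4 : Z ^ (2 * levelExp k) * (2 * √(N : ℝ) + 2) ≤ 4 / 100000 * X := by
    rw [← hs, hW, show (3 / 4 : ℝ) = 1 / 4 + 1 / 2 by norm_num, Real.rpow_add hN0] at *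
    rw [← Real.sqrt_eq_rpow] at e1
    have h1 : 1 ≤ √(N : ℝ) := Real.one_le_sqrt.2 hN1'
    have h2 := mul_le_mul_of_nonneg_left h1 (Real.rpow_nonneg hN0.le (1 / 4))
    linarith
  have e5 : Z ^ (2 * levelExp k) ≤ 2 / 100000 * X := by
    have h1 : 0 ≤ Z ^ (2 * levelExp k) := pow_nonneg (by linarith) _
    have h2 := mul_nonneg h1 (Real.sqrt_nonneg (N : ℝ))
    linarith
  have hX0 : 0 < X := hX ▸ mul_pos hN0 (F.density_pos Z)
  obtain ⟨hlow, -⟩ := F.le_card_roughSet hZ N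
  rw [← hX] at hlow
  obtain ⟨R, hR⟩ : ∃ R, R = F.roughSet Z N := ⟨_, rfl⟩
  rw [← hR] at hlow
  obtain ⟨E, hE⟩ : ∃ E, E = R.filter fun j =>
      Function.Injective fun i => (F.val i j).primeFactors.card := ⟨_, rfl⟩
  have hcover : R ⊆ F.goodSet N ∪ F.squareSet Z N ∪ E := fun j hj => by
    rw [mem_union, mem_union]
    by_cases hsq : ∃ i, ¬ Squarefree (F.val i j)
    · exact .inl (.inr (by rw [FormSystem.squareSet]; exact mem_filter.2 ⟨hR ▸ hj, hsq⟩))
    push Not at hsq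
    by_cases hinj : Function.Injective fun i => (F.val i j).primeFactors.card
    · exact .inr (hE ▸ mem_filter.2 ⟨hj, hinj⟩)
    · rw [Function.not_injective_iff] at hinj
      obtain ⟨i, l, he, hil⟩ := hinj
      rw [hR, FormSystem.roughSet, mem_filter] at hj
      exact .inl (.inl (mem_filter.2 ⟨hj.1, i, l, hil, hsq i, hsq l, he⟩))
  have hk' : (k : ℝ) = 500 := by exact_mod_cast hk
  have hkk : ((k * (k - 1) : ℕ) : ℝ) = 499 * 500 := by
    rw [Nat.cast_mul, Nat.cast_sub F.kpos, hk']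
    norm_num
  have hsum : (499 * 500 : ℝ) * E.card ≤
      2 * (500 * (11 / 10 * X * 37 + 4 / 100000 * X)) := by
    have h1 : ((k * (k - 1) : ℕ) : ℝ) * E.card ≤
        2 * ∑ i, ∑ j ∈ R, ((F.val i j).primeFactors.card : ℝ) := by
      rw [sum_comm, mul_sum]
      refine le_trans ?_ (sum_le_sum_of_subset_of_nonneg (hE ▸ filter_subset _ R)
        fun j _ _ => by positivity)
      rw [mul_comm, ← nsmul_eq_mul]
      refine card_nsmul_le_sum _ _ _ fun j hj => ?_
      rw [hE, mem_filter] at hj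
      exact_mod_cast le_two_mul_sum_of_injective hj.2
    have h2 : ∀ i, ∑ j ∈ R, ((F.val i j).primeFactors.card : ℝ) ≤
        11 / 10 * X * 37 + 4 / 100000 * X := fun i => by
      refine hR ▸ (F.sum_card_primeFactors_le hZ hZN (u := u) ?_ hNsize i).trans
        (add_le_add ?_ e4)
      · rw [hlogZ, hη, ← mul_assoc, mul_one_div_cancel hu0.ne', one_mul]
      · rw [← hX]
        exact mul_le_mul_of_nonneg_left (by linarith) (by positivity)
    have h3 := sum_le_card_nsmul univ _ _ fun i _ => h2 i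
    rw [card_univ, Fintype.card_fin, nsmul_eq_mul, hk'] at h3
    rw [hkk] at h1
    norm_num at h1 h3 ⊢
    linarith
  have hsqc : ((F.squareSet Z N).card : ℝ) ≤ 3 / 200 * X := by
    refine (F.card_squareSet_le hZ N).trans ?_
    rw [hk']
    refine (mul_le_mul_of_nonneg_left (show _ ≤ 3 / 100000 * X by linarith [e2, e3])
      (by norm_num : (0 : ℝ) ≤ 500)).trans_eq ?_
    ring
  have hc := Nat.cast_le (α := ℝ).2 (((card_le_card hcover).trans (card_union_le _ _)).trans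
    (add_le_add (card_union_le _ _) le_rfl))
  push_cast at hc
  have hfin : X / 2 ≤ ((F.goodSet N).card : ℝ) := by linarith
  refine le_trans ?_ hfin
  rw [show c₀ / 2 * N / Real.log N ^ k = c₀ * N / Real.log N ^ k / 2 by ring]
  linarith

end FA.ConsecutiveDivisors

end
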