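import Fermat.Agent.ConsecutiveDivisors.Lemma
import Fermat.Agent.ConsecutiveDivisors.Sieve

/-!
# `d (n) = d (n + s)`

For `m = W j + b` write `a i m + 1 = r i M i`. If `a l = a i + g` then
`n = s (a i / g) (a l m + 1)` has `n + s = s (a l / g) (a i m + 1)`, and the `r` can be chosen so
that `d (n) = d (n + s)`, or the same for `Ω` or `ω`, whenever `M i` and `M l` are squarefree with
equally many prime factors.
-/

set_option autoImplicit false

noncomputable section

namespace FA.ConsecutiveDivisors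

open Finset Filter

theorem exists_many_eq {k : ℕ} (hk : k = 500) {a : Fin k → ℕ} (hpos : ∀ i, 0 < a i)
    (hstep : ∀ i j, i ≠ j → a j = a i + (a i).gcd (a j) ∨ a i = a j + (a i).gcd (a j))
    {s : ℕ} (hs : 0 < s) (r : Fin k → ℕ) (hr0 : ∀ i, 0 < r i)
    (hrbig : ∀ i, ∀ p : ℕ, p.Prime → p ∣ r i → (∑ l, a l) + s < p)
    (hrco : ∀ i l, i ≠ l → (r i).Coprime (r l)) (f : ℕ → ℕ)
    (hf : ∀ i l : Fin k, a l = a i + (a i).gcd (a l) → ∀ M M' : ℕ,
      Squarefree M → Squarefree M' → M.primeFactors.card = M'.primeFactors.card →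
      (s * (a i / (a i).gcd (a l))).Coprime (r l * M) → (r l).Coprime M →
      (s * (a l / (a i).gcd (a l))).Coprime (r i * M') → (r i).Coprime M' →
      f (s * (a i / (a i).gcd (a l)) * (r l * M)) = f (s * (a l / (a i).gcd (a l)) * (r i * M'))) :
    ∃ c : ℝ, 0 < c ∧ ∀ᶠ x : ℕ in atTop,
      c * x / Real.log x ^ k ≤ (((Icc 1 x).filter fun n => f n = f (n + s)).card : ℝ) := by
  classical
  obtain ⟨am, ham⟩ : ∃ am, am = (∑ i, a i) + s := ⟨_, rfl⟩
  have hale : ∀ i, a i ≤ am := fun i =>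
    ham ▸ (single_le_sum (fun _ _ => Nat.zero_le _) (mem_univ i)).trans (Nat.le_add_right _ _)
  obtain ⟨D, hD⟩ : ∃ D, D = (∏ i, r i) + k + am := ⟨_, rfl⟩
  have hamD : am ≤ D := hD ▸ Nat.le_add_left _ _
  have hram : ∀ i p, p.Prime → p ∣ r i → am < p := fun i p hp h => ham ▸ hrbig i p hp h
  have hrD : ∀ i p, p ∣ r i → p ≤ D := fun i p h => hD ▸ (Nat.le_of_dvd
    (prod_pos fun l _ => hr0 l) (h.trans (dvd_prod_of_mem r (mem_univ i)))).trans (by omega)
  obtain ⟨m, hm⟩ : ∃ m : Fin k → ℕ, m = fun i => r i * ∏ p ∈ (r i).primeFactors, p := ⟨_, rfl⟩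
  have hm0 : ∀ i, 0 < m i := fun i => hm ▸ Nat.mul_pos (hr0 i)
    (prod_pos fun p hp => (Nat.prime_of_mem_primeFactors hp).pos)
  have hmp : ∀ i p, p.Prime → p ∣ m i → p ∣ r i := fun i p hp h => by
    rw [hm] at h
    exact (hp.dvd_mul.1 h).elim id fun h' => h'.trans (Nat.prod_primeFactors_dvd _)
  obtain ⟨P₁, hP₁⟩ : ∃ P₁, P₁ = ∏ p ∈ (Icc 1 D).filter Nat.Prime, p := ⟨_, rfl⟩
  have hP₁d : ∀ p, p.Prime → p ≤ D → p ∣ P₁ := fun p hp h =>
    hP₁ ▸ dvd_prod_of_mem (fun p => p) (mem_filter.2 ⟨mem_Icc.2 ⟨hp.one_le, h⟩, hp⟩)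
  have hP₁0 : 0 < P₁ := hP₁ ▸ prod_pos fun p hp => (mem_filter.1 hp).2.pos
  obtain ⟨Q₀, hQ₀⟩ : ∃ Q₀,
      Q₀ = ∏ p ∈ (Icc 1 D).filter (fun p => p.Prime ∧ ∀ i, ¬ p ∣ r i), p := ⟨_, rfl⟩
  have hsol : ∀ i, ∃ x, a i * x + 1 ≡ r i [MOD m i] := fun i => by
    have hco : (a i).Coprime (m i) := Nat.coprime_of_dvd fun p hp h1 h2 =>
      absurd (Nat.le_of_dvd (hpos i) h1)
        (not_le.2 ((hale i).trans_lt (hram i p hp (hmp i p hp h2))))
    obtain ⟨y, hy1, hy2⟩ := Nat.chineseRemainder hco 0 (r i + m i - 1)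
    obtain ⟨x, rfl⟩ := Nat.modEq_zero_iff_dvd.1 hy1
    refine ⟨x, (hy2.add_right 1).trans ?_⟩
    rw [Nat.sub_add_cancel (le_trans (hr0 i) (Nat.le_add_right _ _))]
    exact Nat.add_modEq_right
  choose x hx using hsol
  obtain ⟨b, hb⟩ := Nat.chineseRemainderOfFinset (fun o : Option (Fin k) => o.elim 0 x)
    (fun o => o.elim Q₀ m) univ (fun o _ => by
      cases o with
      | none => exact hQ₀ ▸ (prod_pos fun p hp => (mem_filter.1 hp).2.1.pos).ne'
      | some i => exact (hm0 i).ne')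
    (fun o _ o' _ hne => by
      have key : ∀ i, Q₀.Coprime (m i) := fun i => hQ₀ ▸ Nat.Coprime.prod_left fun p hp =>
        (mem_filter.1 hp).2.1.coprime_iff_not_dvd.2 fun h =>
          (mem_filter.1 hp).2.2 i (hmp i p (mem_filter.1 hp).2.1 h)
      simp only [Function.onFun]
      cases o with
      | none => cases o' with
        | none => exact absurd rfl hne
        | some i => exact key i
      | some i => cases o' with
        | none => exact (key i).symm
        | some l =>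
          exact Nat.coprime_of_dvd fun p hp h1 h2 => hp.not_dvd_one
            ((hrco i l fun h => hne (congrArg some h)).gcd_eq_one ▸
              Nat.dvd_gcd (hmp i p hp h1) (hmp l p hp h2)))
  obtain ⟨W, hW⟩ : ∃ W, W = P₁ * ∏ i, r i := ⟨_, rfl⟩
  have hW0 : 0 < W := hW ▸ Nat.mul_pos hP₁0 (prod_pos fun i _ => hr0 i)
  have hbQ : ∀ p, p.Prime → p ≤ D → (∀ i, ¬ p ∣ r i) → p ∣ b := fun p hp hpD hne =>
    (hQ₀ ▸ dvd_prod_of_mem (fun p => p) (mem_filter.2 ⟨mem_Icc.2 ⟨hp.one_le, hpD⟩, hp, hne⟩) :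
      p ∣ Q₀).trans (Nat.modEq_zero_iff_dvd.1 (hb none (mem_univ _)))
  have hbq : ∀ i, a i * b + 1 ≡ r i [MOD m i] := fun i =>
    (((hb (some i) (mem_univ _)).mul_left _).add_right 1).trans (hx i)
  have hrd : ∀ i, r i ∣ a i * b + 1 := fun i => by
    have h : r i ∣ m i := hm ▸ dvd_mul_right _ _
    exact (((hbq i).of_dvd h).dvd_iff dvd_rfl).2 dvd_rfl
  obtain ⟨β, hβ⟩ : ∃ β : Fin k → ℕ, β = fun i => (a i * b + 1) / r i := ⟨_, rfl⟩
  have hrβ : ∀ i, r i * β i = a i * b + 1 := fun i => hβ ▸ Nat.mul_div_cancel' (hrd i)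
  obtain ⟨α, hα⟩ : ∃ α : Fin k → ℕ, α = fun i => a i * P₁ * ∏ l ∈ univ.erase i, r l := ⟨_, rfl⟩
  have hrα : ∀ i, r i * α i = a i * W := fun i => by
    rw [hα, hW, ← mul_prod_erase univ r (mem_univ i)]
    ring
  have hk0 : 0 < k := by omega
  have hne : ∀ {i l}, i ≠ l → a i ≠ a l := fun {i l} h h' => by
    have := Nat.gcd_pos_of_pos_left (a l) (hpos i)
    rcases hstep i l h with h2 | h2 <;> omega
  have hlargeW : ∀ p, p.Prime → D < p → ¬ p ∣ W := fun p hp hDp hd => by
    rw [hW] at hd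
    rcases hp.dvd_mul.1 hd with h | h
    · rw [hP₁] at h
      obtain ⟨p', hp', h⟩ := (hp.prime.dvd_finsetProd_iff _).1 h
      rw [(Nat.prime_dvd_prime_iff_eq hp (mem_filter.1 hp').2).1 h] at hDp
      exact absurd (mem_Icc.1 (mem_filter.1 hp').1).2 (not_le.2 hDp)
    · obtain ⟨i, -, h⟩ := (hp.prime.dvd_finsetProd_iff _).1 h
      exact absurd (hrD i p h) (not_le.2 hDp)
  let F : FormSystem k D :=
  { α := α
    β := β
    kpos := hk0
    le := hD ▸ (Nat.le_add_left k _).trans (Nat.le_add_right _ _)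
    apos := fun i => hα ▸ Nat.mul_pos (Nat.mul_pos (hpos i) hP₁0) (prod_pos fun l _ => hr0 l)
    bpos := fun i => Nat.pos_of_mul_pos_left (a := r i) (hrβ i ▸ Nat.succ_pos _)
    small := fun i p hp hpD => ⟨by rw [hα]; exact ((hP₁d p hp hpD).mul_left _).mul_right _,
      fun hd => by
        have h1 : p ∣ a i * b + 1 := hrβ i ▸ hd.mul_left _
        have hpb : ¬ p ∣ b := fun h => hp.not_dvd_one ((Nat.dvd_add_right (h.mul_left _)).1 h1)
        by_cases hpq : ∃ l, p ∣ r l
        · obtain ⟨l, hl⟩ := hpq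
          rcases eq_or_ne l i with rfl | hli
          · have h2 : r l * p ∣ a l * b + 1 := hrβ l ▸ Nat.mul_dvd_mul_left _ hd
            have hpm : r l * p ∣ m l := hm ▸ Nat.mul_dvd_mul_left _ (dvd_prod_of_mem (fun p => p)
              (Nat.mem_primeFactors.2 ⟨hp, hl, (hr0 l).ne'⟩))
            have h3 := Nat.le_of_dvd (hr0 l) ((((hbq l).of_dvd hpm).dvd_iff dvd_rfl).1 h2)
            have h4 := Nat.mul_le_mul_left (r l) hp.two_le
            have := hr0 l
            omega
          · have h3 : p ∣ a l * b + 1 := hrβ l ▸ hl.mul_right _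
            have hg : p ∣ (a l).gcd (a i) * b := by
              rcases hstep l i hli with h4 | h4
              · rw [h4, add_mul, add_right_comm] at h1
                exact (Nat.dvd_add_right h3).1 h1
              · rw [h4, add_mul, add_right_comm] at h3
                exact (Nat.dvd_add_right h1).1 h3
            rcases hp.dvd_mul.1 hg with h4 | h4
            · exact absurd (Nat.le_of_dvd (hpos l) (h4.trans (Nat.gcd_dvd_left _ _)))
                (not_le.2 ((hale l).trans_lt (hram l p hp hl)))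
            · exact hpb h4
        · push Not at hpq
          exact hpb (hbQ p hp hpD hpq)⟩
    large := fun i p hp hDp hd => by
      have h : p ∣ a i * W := hrα i ▸ hd.mul_left _
      rcases hp.dvd_mul.1 h with h | h
      · exact absurd (Nat.le_of_dvd (hpos i) h) (not_le.2 (((hale i).trans hamD).trans_lt hDp))
      · exact hlargeW p hp hDp h
    cross := fun i l hil p hp hDp hmod => by
      have h1 := hmod.mul_left (r i * r l)
      rw [show r i * r l * (α i * β l) = r i * α i * (r l * β l) by ring,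
        show r i * r l * (α l * β i) = r l * α l * (r i * β i) by ring, hrα, hrα, hrβ, hrβ,
        show a i * W * (a l * b + 1) = W * (a i * a l * b) + W * a i by ring,
        show a l * W * (a i * b + 1) = W * (a i * a l * b) + W * a l by ring] at h1
      exact hne hil ((Nat.ModEq.cancel_left_of_coprime (hp.coprime_iff_not_dvd.2
        (hlargeW p hp hDp)) (Nat.ModEq.add_left_cancel' _ h1)).eq_of_lt_of_lt
        (((hale i).trans hamD).trans_lt hDp) (((hale l).trans hamD).trans_lt hDp)) }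
  have hval : ∀ i j, r i * F.val i j = a i * (W * j + b) + 1 := fun i j => by
    show r i * (α i * j + β i) = _
    rw [mul_add, ← mul_assoc, hrα, hrβ]
    ring
  obtain ⟨c, hc, hev⟩ := F.exists_card_goodSet hk
  obtain ⟨C, hC⟩ : ∃ C, C = s * (am + 1) * ((am + 1) * (W + b + 1) + 1) := ⟨_, rfl⟩
  have hC0 : 0 < C := hC ▸ Nat.mul_pos (Nat.mul_pos hs (Nat.succ_pos _)) (Nat.succ_pos _)
  refine ⟨c / (2 * C * (k * k : ℕ)), by positivity, ?_⟩
  filter_upwards [(Filter.tendsto_atTop_atTop.2 fun m => ⟨m * C, fun x hx =>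
      (Nat.le_div_iff_mul_le hC0).2 hx⟩ : Tendsto (fun x => x / C) atTop atTop).eventually
      (hev.and (eventually_ge_atTop 2)), eventually_ge_atTop C] with x ⟨hN, hN2⟩ hxC
  obtain ⟨N, hNdef⟩ : ∃ N, N = x / C := ⟨_, rfl⟩
  rw [← hNdef] at hN hN2
  obtain ⟨T, hT⟩ : ∃ T, T = (Icc 1 x).filter fun n => f n = f (n + s) := ⟨_, rfl⟩
  obtain ⟨num, hnum⟩ : ∃ num : Fin k → Fin k → ℕ → ℕ, num = fun i l j =>
      s * (a i / (a i).gcd (a l)) * (a l * (W * j + b) + 1) := ⟨_, rfl⟩
  have hmem : ∀ i l j, a l = a i + (a i).gcd (a l) → j < N → Squarefree (F.val i j) →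
      Squarefree (F.val l j) → (F.val i j).primeFactors.card = (F.val l j).primeFactors.card →
      num i l j ∈ T := fun i l j hl hj hsi hsl hω => by
    obtain ⟨g, hg⟩ : ∃ g, g = (a i).gcd (a l) := ⟨_, rfl⟩
    have hg0 : 0 < g := hg ▸ Nat.gcd_pos_of_pos_left _ (hpos i)
    obtain ⟨A, hA⟩ : g ∣ a i := hg ▸ Nat.gcd_dvd_left _ _
    have hAl : a l = g * (A + 1) := by rw [hl, ← hg, hA]; ring
    have e1 : a i / g = A := by rw [hA, Nat.mul_div_cancel_left _ hg0]
    have e2 : a l / g = A + 1 := by rw [hAl, Nat.mul_div_cancel_left _ hg0]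
    have hA0 : 0 < A := Nat.pos_of_mul_pos_left (a := g) (hA ▸ hpos i)
    have hsucc : num i l j + s = s * (a l / (a i).gcd (a l)) * (r i * F.val i j) := by
      rw [hnum, hval, ← hg]
      simp only [← hg, e1, e2]
      rw [hA, hAl]
      ring
    have hnuml : num i l j = s * (a i / (a i).gcd (a l)) * (r l * F.val l j) := by rw [hnum, hval]
    have hcop : ∀ u v, u ∣ a v → ∀ w, (s * u).Coprime (r w * F.val w j) := fun u v huv w =>
      Nat.coprime_of_dvd fun p hp h1 h2 => by
        have hpa : p ≤ am := (hp.dvd_mul.1 h1).elim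
          (fun h => ham ▸ (Nat.le_of_dvd hs h).trans (Nat.le_add_left _ _))
          fun h => (Nat.le_of_dvd (hpos v) (h.trans huv)).trans (hale v)
        have hb' : p ∣ b := hbQ p hp (hpa.trans hamD) fun i h =>
          absurd (hram i p hp h) (not_lt.2 hpa)
        have hpW : p ∣ W := hW ▸ (hP₁d p hp (hpa.trans hamD)).mul_right _
        rw [hval] at h2
        exact hp.not_dvd_one ((Nat.dvd_add_right ((dvd_add (hpW.mul_right j) hb').mul_left _)).1 h2)
    have hqM : ∀ w, (r w).Coprime (F.val w j) := fun w => Nat.coprime_of_dvd fun p hp h1 h2 =>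
      F.not_dvd_val_of_le hp (hrD w p h1) j h2
    have hmain := hf i l hl (F.val l j) (F.val i j) hsl hsi hω.symm
      (hcop _ i (Nat.div_dvd_of_dvd (Nat.gcd_dvd_left _ _)) l) (hqM l)
      (hcop _ l (Nat.div_dvd_of_dvd (Nat.gcd_dvd_right _ _)) i) (hqM i)
    rw [hT, mem_filter, mem_Icc]
    refine ⟨⟨?_, ?_⟩, ?_⟩
    · rw [hnum]
      simp only [← hg, e1]
      exact Nat.mul_pos (Nat.mul_pos hs hA0) (Nat.succ_pos _)
    · have h1 : num i l j ≤ C * N := by
        rw [hnum, hC, mul_assoc (s * (am + 1))]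
        refine Nat.mul_le_mul (Nat.mul_le_mul_left s
          ((Nat.div_le_self _ _).trans ((hale i).trans (Nat.le_succ _)))) ?_
        rw [add_mul, one_mul, mul_assoc]
        refine Nat.add_le_add (Nat.mul_le_mul ((hale l).trans (Nat.le_succ _)) ?_) (by omega)
        rw [add_mul, add_mul, one_mul]
        exact (Nat.add_le_add (Nat.mul_le_mul_left W hj.le)
          (Nat.le_mul_of_pos_right b (by omega))).trans (Nat.le_add_right _ _)
      exact h1.trans ((mul_comm _ _).trans_le (hNdef ▸ Nat.div_mul_le_self x C))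
    · rw [hsucc, hnuml]
      exact hmain
  have hinj : ∀ i l, Set.InjOn (num i l) Set.univ := fun i l j _ j' _ h => by
    rw [hnum] at h
    have hd : 0 < s * (a i / (a i).gcd (a l)) := Nat.mul_pos hs (Nat.div_pos
      (Nat.le_of_dvd (hpos i) (Nat.gcd_dvd_left _ _)) (Nat.gcd_pos_of_pos_left _ (hpos i)))
    exact Nat.eq_of_mul_eq_mul_left hW0 (Nat.add_right_cancel (Nat.eq_of_mul_eq_mul_left (hpos l)
      (Nat.add_right_cancel (Nat.eq_of_mul_eq_mul_left hd h))))
  have hcard : (F.goodSet N).card ≤ k * k * T.card := by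
    have hsub : F.goodSet N ⊆ (univ : Finset (Fin k × Fin k)).biUnion fun z =>
        (F.goodSet N).filter fun j => num z.1 z.2 j ∈ T := fun j hj => by
      have hj' := hj
      rw [FormSystem.goodSet, mem_filter, mem_range] at hj'
      obtain ⟨hjN, i, l, hil, hsi, hsl, hω⟩ := hj'
      rcases hstep i l hil with h | h
      · exact mem_biUnion.2 ⟨(i, l), mem_univ _, mem_filter.2 ⟨hj, hmem i l j h hjN hsi hsl hω⟩⟩
      · exact mem_biUnion.2 ⟨(l, i), mem_univ _, mem_filter.2
          ⟨hj, hmem l i j (by rwa [Nat.gcd_comm]) hjN hsl hsi hω.symm⟩⟩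
    refine ((card_le_card hsub).trans card_biUnion_le).trans
      ((sum_le_card_nsmul _ _ T.card fun z _ => card_le_card_of_injOn (num z.1 z.2)
        (fun j hj => (mem_filter.1 hj).2) ((hinj z.1 z.2).mono (Set.subset_univ _))).trans_eq ?_)
    rw [card_univ, Fintype.card_prod, Fintype.card_fin, smul_eq_mul]
  rw [← hT]
  have hNR : (x : ℝ) ≤ 2 * C * N := by
    have h1 := Nat.div_add_mod x C
    have h2 := Nat.mod_lt x hC0
    rw [← hNdef] at h1
    have h3 : C * 1 ≤ C * N := Nat.mul_le_mul_left C (by omega)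
    have h4 : x ≤ 2 * (C * N) := by omega
    rw [mul_assoc]
    exact_mod_cast h4
  have hlogN : 0 < Real.log N := Real.log_pos (Nat.one_lt_cast.2 hN2)
  have hlog : Real.log N ^ k ≤ Real.log x ^ k := pow_le_pow_left₀ hlogN.le
    (Real.log_le_log (Nat.cast_pos.2 (by omega))
      (Nat.cast_le.2 (hNdef ▸ Nat.div_le_self x C))) k
  have hkk : (0 : ℝ) < ((k * k : ℕ) : ℝ) := Nat.cast_pos.2 (Nat.mul_pos hk0 hk0)
  have hC0' : (0 : ℝ) < C := Nat.cast_pos.2 hC0
  calc c / (2 * C * ((k * k : ℕ) : ℝ)) * x / Real.log x ^ k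
      ≤ c / (2 * C * ((k * k : ℕ) : ℝ)) * (2 * C * N) / Real.log N ^ k :=
        div_le_div₀ (by positivity) (mul_le_mul_of_nonneg_left hNR (by positivity))
          (pow_pos hlogN k) hlog
    _ = c * N / Real.log N ^ k / ((k * k : ℕ) : ℝ) := by field_simp
    _ ≤ ((F.goodSet N).card : ℝ) / ((k * k : ℕ) : ℝ) := div_le_div_of_nonneg_right hN hkk.le
    _ ≤ (T.card : ℝ) := by
        rw [div_le_iff₀ hkk, mul_comm]
        exact_mod_cast hcard

theorem card_divisors_squarefree {M : ℕ} (hM : Squarefree M) :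
    M.divisors.card = 2 ^ M.primeFactors.card := by
  rw [Nat.card_divisors hM.ne_zero, prod_congr rfl (g := fun _ => 2) fun p hp => by
    rw [Nat.factorization_eq_one_of_squarefree hM (Nat.prime_of_mem_primeFactors hp)
      (Nat.dvd_of_mem_primeFactors hp)], prod_const]

/-- Distinct large primes with prescribed exponents. -/
theorem exists_prime_powers {k : ℕ} (N : ℕ) (e : Fin k → ℕ) :
    ∃ q : Fin k → ℕ, (∀ i, (q i).Prime) ∧ (∀ i, ∀ p : ℕ, p.Prime → p ∣ q i ^ e i → N < p) ∧
      ∀ i l, i ≠ l → (q i ^ e i).Coprime (q l ^ e l) := by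
  refine ⟨fun i : Fin k => Nat.nth Nat.Prime (N + i), fun i => Nat.prime_nth_prime _,
    fun i p hp h => ?_, fun i l hil => ?_⟩
  · rw [(Nat.prime_dvd_prime_iff_eq hp (Nat.prime_nth_prime _)).1 (hp.dvd_of_dvd_pow h)]
    exact lt_of_lt_of_le (by omega) (Nat.add_two_le_nth_prime (N + i))
  · exact Nat.Coprime.pow _ _ ((Nat.coprime_primes (Nat.prime_nth_prime _)
      (Nat.prime_nth_prime _)).2 fun h => hil (Fin.ext (Nat.add_left_cancel
        (Nat.nth_injective Nat.infinite_setOfPred_prime h))))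

/-- **Heath-Brown, Pinner**: `d (n) = d (n + s)` for `≫ x / (log x) ^ 500` numbers up to `x`. -/
theorem exists_card_divisors_eq {s : ℕ} (hs : 0 < s) : ∃ c : ℝ, 0 < c ∧ ∀ᶠ x : ℕ in atTop,
    c * x / Real.log x ^ 500 ≤
      (((Icc 1 x).filter fun n => n.divisors.card = (n + s).divisors.card).card : ℝ) := by
  obtain ⟨k, hk⟩ : ∃ k : ℕ, k = 500 := ⟨_, rfl⟩
  obtain ⟨a, x, h⟩ := exists_compatible hs k (by omega)
  obtain ⟨q, hq, hbig, hco⟩ := exists_prime_powers ((∑ l, a l) + s) fun i => x i - 1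
  have hh := exists_many_eq hk h.pos h.step hs _ (fun i => pow_pos (hq i).pos _) hbig hco
    (fun n => n.divisors.card) fun i l _ M M' hM hM' hω h1 h2 h3 h4 => by
      rw [h1.card_divisors_mul, h2.card_divisors_mul, h3.card_divisors_mul, h4.card_divisors_mul,
        card_divisors_pow (hq l), card_divisors_pow (hq i), card_divisors_squarefree hM,
        card_divisors_squarefree hM', hω, Nat.sub_add_cancel (h.wpos l),
        Nat.sub_add_cancel (h.wpos i), ← mul_assoc, ← mul_assoc, mul_comm _ (x l), ← h.ratio i l,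
        mul_comm (x i)]
  rw [hk] at hh
  exact hh

/-- **Schlage-Puchta**: `ω (n) = ω (n + s)` for `≫ x / (log x) ^ 500` numbers up to `x`. -/
theorem exists_card_primeFactors_eq {s : ℕ} (hs : 0 < s) : ∃ c : ℝ, 0 < c ∧ ∀ᶠ x : ℕ in atTop,
    c * x / Real.log x ^ 500 ≤
      (((Icc 1 x).filter fun n => n.primeFactors.card = (n + s).primeFactors.card).card : ℝ) := by
  classical
  obtain ⟨k, hk⟩ : ∃ k : ℕ, k = 500 := ⟨_, rfl⟩
  obtain ⟨a, y, h⟩ := exists_compatible_unitary hs k (by omega)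
  obtain ⟨Q, hQ⟩ : ∃ Q : Fin k → Finset ℕ, Q = fun i : Fin k => (range (y i)).image fun t =>
      Nat.nth Nat.Prime ((∑ l, a l) + s + Nat.pair i t) := ⟨_, rfl⟩
  have hmem : ∀ i, ∀ p ∈ Q i, ∃ t, p = Nat.nth Nat.Prime ((∑ l, a l) + s + Nat.pair i t) :=
    fun i p hp => by
      rw [hQ] at hp
      obtain ⟨t, -, rfl⟩ := mem_image.1 hp
      exact ⟨t, rfl⟩
  have hQp : ∀ i, ∀ p ∈ Q i, p.Prime := fun i p hp => by
    obtain ⟨t, rfl⟩ := hmem i p hp
    exact Nat.prime_nth_prime _
  have hcard : ∀ i, (∏ p ∈ Q i, p).primeFactors.card = y i := fun i => by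
    rw [Nat.primeFactors_prod (hQp i), hQ]
    dsimp only
    rw [card_image_of_injective _ fun t t' e => (Nat.pair_eq_pair.1 (Nat.add_left_cancel
      (Nat.nth_injective Nat.infinite_setOfPred_prime e))).2, card_range]
  have hdvd : ∀ i p, p.Prime → p ∣ ∏ p' ∈ Q i, p' → p ∈ Q i := fun i p hp hd => by
    obtain ⟨p', hp', h'⟩ := (hp.prime.dvd_finsetProd_iff _).1 hd
    rwa [(Nat.prime_dvd_prime_iff_eq hp (hQp i p' hp')).1 h']
  have hh := exists_many_eq hk h.pos h.step hs (fun i => ∏ p ∈ Q i, p)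
    (fun i => prod_pos fun p hp => (hQp i p hp).pos)
    (fun i p hp hd => by
      obtain ⟨t, rfl⟩ := hmem i p (hdvd i p hp hd)
      exact lt_of_lt_of_le (by omega) (Nat.add_two_le_nth_prime _))
    (fun i l hil => Nat.coprime_of_dvd fun p hp h1 h2 => by
      obtain ⟨t, e⟩ := hmem i p (hdvd i p hp h1)
      obtain ⟨t', e'⟩ := hmem l p (hdvd l p hp h2)
      exact hil (Fin.ext (Nat.pair_eq_pair.1 (Nat.add_left_cancel
        (Nat.nth_injective Nat.infinite_setOfPred_prime (e.symm.trans e')))).1))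
    (fun n => n.primeFactors.card) fun i l _ M M' _ _ hω h1 h2 h3 h4 => by
      have hr := h.ratio i l
      simp only [unitaryCount, ← pow_add] at hr
      have := Nat.pow_right_injective le_rfl hr
      rw [h1.primeFactors_mul, card_union_of_disjoint h1.disjoint_primeFactors,
        h2.primeFactors_mul, card_union_of_disjoint h2.disjoint_primeFactors,
        h3.primeFactors_mul, card_union_of_disjoint h3.disjoint_primeFactors,
        h4.primeFactors_mul, card_union_of_disjoint h4.disjoint_primeFactors, hcard, hcard, hω]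
      omega
  rw [hk] at hh
  exact hh

open ArithmeticFunction in
/-- `Ω (n) = Ω (n + s)` for `≫ x / (log x) ^ 500` numbers up to `x`. -/
theorem exists_cardFactors_eq {s : ℕ} (hs : 0 < s) : ∃ c : ℝ, 0 < c ∧ ∀ᶠ x : ℕ in atTop,
    c * x / Real.log x ^ 500 ≤
      (((Icc 1 x).filter fun n => cardFactors n = cardFactors (n + s)).card : ℝ) := by
  obtain ⟨k, hk⟩ : ∃ k : ℕ, k = 500 := ⟨_, rfl⟩
  obtain ⟨a, x, h⟩ := exists_compatible hs k (by omega)
  obtain ⟨q, hq, hbig, hco⟩ := exists_prime_powers ((∑ l, a l) + s) fun i => cardFactors (a i)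
  have hh := exists_many_eq hk h.pos h.step hs _ (fun i => pow_pos (hq i).pos _) hbig hco
    (fun n => cardFactors n) fun i l _ M M' hM hM' hω _ _ _ _ => by
      have hgi := Nat.div_mul_cancel (Nat.gcd_dvd_left (a i) (a l))
      have hgl := Nat.div_mul_cancel (Nat.gcd_dvd_right (a i) (a l))
      have hg0 : (a i).gcd (a l) ≠ 0 := (Nat.gcd_pos_of_pos_left _ (h.pos i)).ne'
      have hi0 : a i / (a i).gcd (a l) ≠ 0 := fun e => (h.pos i).ne' (by rw [← hgi, e, zero_mul])
      have hl0 : a l / (a i).gcd (a l) ≠ 0 := fun e => (h.pos l).ne' (by rw [← hgl, e, zero_mul])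
      have ei := congrArg cardFactors hgi
      have el := congrArg cardFactors hgl
      rw [cardFactors_mul hi0 hg0] at ei
      rw [cardFactors_mul hl0 hg0] at el
      have eM : ∀ {M : ℕ}, Squarefree M → cardFactors M = M.primeFactors.card := fun {M} hM => by
        rw [← (cardDistinctFactors_eq_cardFactors_iff_squarefree hM.ne_zero).2 hM,
          cardDistinctFactors_apply, ← List.card_toFinset, Nat.toFinset_factors]
      rw [cardFactors_mul (mul_ne_zero hs.ne' hi0)
          (mul_ne_zero (pow_ne_zero _ (hq l).ne_zero) hM.ne_zero),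
        cardFactors_mul (mul_ne_zero hs.ne' hl0)
          (mul_ne_zero (pow_ne_zero _ (hq i).ne_zero) hM'.ne_zero),
        cardFactors_mul hs.ne' hi0, cardFactors_mul hs.ne' hl0,
        cardFactors_mul (pow_ne_zero _ (hq l).ne_zero) hM.ne_zero,
        cardFactors_mul (pow_ne_zero _ (hq i).ne_zero) hM'.ne_zero,
        cardFactors_apply_prime_pow (hq l), cardFactors_apply_prime_pow (hq i), eM hM, eM hM', hω]
      omega
  rw [hk] at hh
  exact hh

end FA.ConsecutiveDivisors

end
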